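import Fermat.Agent.JTorsion.Divisible.Global
import Fermat.Agent.JTorsion.Descent
import Fermat.Agent.Level.Gamma0

/-!
# The group of classes over an algebraically closed subfield of `ℂ` is divisible
-/

set_option autoImplicit false
set_option linter.style.haveILetI false
set_option linter.unusedSectionVars false
set_option synthInstance.maxHeartbeats 200000
set_option maxHeartbeats 1600000

noncomputable section

namespace FA.JTorsion.Divisible

open UpperHalfPlane hiding I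
open Complex Filter Set ModularCurve AlgebraicCurve FA.Level FA.ModField
open FA.Curve
open scoped MatrixGroups

variable {V : Lvl} (L : Type) [Field L] [IsAlgClosed L] [Algebra ℚ L] [Algebra L ℂ]

/-- A complex number with finite orbit over an algebraically closed subfield lies in it. -/
theorem mem_range_of_finite_orbit (z : ℂ)
    (h : ((fun σ : ℂ ≃+* ℂ => σ z) '' {σ | ∀ a : L, σ (algebraMap L ℂ a) = algebraMap L ℂ a}).Finite) :
    ∃ a : L, algebraMap L ℂ a = z := by
  by_contra hz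
  have htr : Transcendental L z := fun halg => hz
    (RingHom.mem_range.1 (minpoly.degree_eq_one_iff.1
      (IsAlgClosed.degree_eq_one_of_irreducible L (minpoly.irreducible halg.isIntegral))))
  have hs : AlgebraicIndepOn L id ({z} : Set ℂ) := by
    have : Unique ({z} : Set ℂ) := Set.uniqueSingleton z
    refine algebraicIndependent_unique_type_iff.mpr ?_
    rw [show (default : ({z} : Set ℂ)) = ⟨z, rfl⟩ from Subsingleton.elim _ _]
    exact htr
  obtain ⟨t, hzt, ht⟩ := exists_isTranscendenceBasis_superset hs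
  obtain ⟨σ, hσ⟩ :=
    FA.Period.exists_ringEquiv_extending _ ht (FA.Period.shiftVars t L).toRingEquiv
  have hz1 : σ z = z + 1 := by
    have h1 := hσ (MvPolynomial.X ⟨z, hzt rfl⟩)
    simpa [FA.Period.shiftVars] using h1
  have hfix : ∀ a : L, σ (algebraMap L ℂ a) = algebraMap L ℂ a := fun a => by
    have h1 := hσ (MvPolynomial.C a)
    simpa [FA.Period.shiftVars] using h1
  have hk : ∀ k : ℕ, ∃ τ : ℂ ≃+* ℂ, τ z = z + k ∧
      ∀ a : L, τ (algebraMap L ℂ a) = algebraMap L ℂ a := by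
    intro k
    induction k with
    | zero => exact ⟨RingEquiv.refl ℂ, by simp, fun a => rfl⟩
    | succ k ih =>
      obtain ⟨τ, hτ, hτf⟩ := ih
      refine ⟨τ.trans σ, ?_, fun a => by rw [RingEquiv.trans_apply, hτf, hfix]⟩
      rw [RingEquiv.trans_apply, hτ, map_add, hz1, map_natCast]
      push_cast
      ring
  refine Set.infinite_range_of_injective (f := fun k : ℕ => z + (k : ℂ)) (fun a b hab => ?_)
    (h.subset ?_)
  · exact_mod_cast add_left_cancel hab
  · rintro _ ⟨k, rfl⟩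
    obtain ⟨τ, hτ, hτf⟩ := hk k
    exact ⟨τ, hτf, hτ⟩

theorem toC_algebraMap (a : L) :
    toC V L (algebraMap L (V.fld L) a) = algebraMap ℂ (V.fld ℂ) (algebraMap L ℂ a) := by
  apply Subtype.ext
  rw [coe_toC]
  show coeffMap (algebraMap L ℂ) (algebraMap L (LaurentSeries L) a) =
    algebraMap ℂ (LaurentSeries ℂ) (algebraMap L ℂ a)
  rw [algebraMap_laurentSeries_eq_single, coeffMap_single, algebraMap_laurentSeries_eq_single]

theorem toC_jF : toC V L (V.jF L) = V.jF ℂ := by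
  apply Subtype.ext
  rw [coe_toC, V.coe_jF L, V.coe_jF ℂ, coeffMap_jqModC]

variable {L}

/-- Over a place where `j` is finite and unramified there is only one place over `ℂ`. -/
theorem eq_of_over {v : Place L (V.fld L)} {a : L}
    (hv : 0 < v.ord (V.jF L - algebraMap L (V.fld L) a)) (h0 : a ≠ 0) (h1 : a ≠ 1728)
    {w w' : Place ℂ (V.fld ℂ)} (hw : ∀ f, w.ord (toC V L f) = v.ord f)
    (hw' : ∀ f, w'.ord (toC V L f) = v.ord f) : w = w' := by
  obtain ⟨τ₀, hτ⟩ := exists_jfun_eq (algebraMap L ℂ a)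
  have hj0 : jfun τ₀ ≠ 0 := by rw [hτ]; exact (_root_.map_ne_zero _).2 h0
  have hj1 : jfun τ₀ ≠ 1728 := by
    rw [hτ, ← map_ofNat (algebraMap L ℂ) 1728]
    exact fun h => h1 ((algebraMap L ℂ).injective h)
  set EL := V.pointFam L a τ₀ hτ 1 (one_smul _ τ₀) 1 one_pos (order_jLocal_general hj0 hj1)
    (rotUnit_one τ₀)
  set EC := V.pointFam ℂ (algebraMap L ℂ a) τ₀ hτ 1 (one_smul _ τ₀) 1 one_pos
    (order_jLocal_general hj0 hj1) (rotUnit_one τ₀)
  have hpos : ∀ u : Place ℂ (V.fld ℂ), (∀ f, u.ord (toC V L f) = v.ord f) →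
      ∃ i, EC.pl i = u ∧ EL.pl i = v := fun u hu => by
    have h2 := hu (V.jF L - algebraMap L (V.fld L) a)
    rw [map_sub, toC_jF, toC_algebraMap] at h2
    obtain ⟨i, hi⟩ := EC.pl_surjective u (h2 ▸ hv)
    refine ⟨i, hi, place_eq_of_scaled (EL.scale_pos i) (EC.scale_pos i) fun f => ?_⟩
    rw [← EL.order_σ, ← hu, ← hi, ← EC.order_σ]
    show (emb (pointPar V τ₀) _ f).order = (emb (pointPar V τ₀) _ (toC V L f)).order
    rw [emb_toC]
  obtain ⟨i, hi, hi'⟩ := hpos w hw
  obtain ⟨i', hi2, hi2'⟩ := hpos w' hw'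
  obtain ⟨r, hr⟩ := EL.pl_eq_iff_orbit.1 (hi'.trans hi2'.symm)
  have hdeck : EL.deck = id := funext fun j => by
    show (1 : SL(2, ℤ))⁻¹ • j = j
    rw [inv_one, one_smul]
  rw [hdeck, Function.iterate_id] at hr
  rw [← hi, ← hi2]
  exact congrArg EC.pl hr

/-- Pole only at infinity, of order `k`, leading coefficient one, divisor `D` modulo `l`. -/
def NormD (V : Lvl) (l : ℕ) (D : Divisor ℂ (V.fld ℂ)) (f : V.fld ℂ) (k : ℕ) : Prop :=
  (f ≠ 0 ∧ ∀ v, (l : ℤ) ∣ D v - v.ord f) ∧ (∀ v, v ≠ infPlace V → 0 ≤ v.ord f) ∧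
    (infPlace V).ord f = -(k : ℤ) ∧ (f : LaurentSeries ℂ).leadingCoeff = 1

theorem exists_normD {l : ℕ} {D : Divisor ℂ (V.fld ℂ)} {f : V.fld ℂ}
    (hf : f ≠ 0) (hd : ∀ v, (l : ℤ) ∣ D v - v.ord f)
    (hpos : ∀ v, v ≠ infPlace V → 0 ≤ v.ord f) :
    ∃ (k : ℕ) (c : ℂ), c ≠ 0 ∧ NormD V l D (algebraMap ℂ (V.fld ℂ) c * f) k ∧
      (infPlace V).ord f = -(k : ℤ) := by
  classical
  have hne : (f : LaurentSeries ℂ) ≠ 0 := fun h => hf (Subtype.ext h)
  set c := (f : LaurentSeries ℂ).leadingCoeff⁻¹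
  have hc : c ≠ 0 := inv_ne_zero (HahnSeries.leadingCoeff_ne_zero.2 hne)
  have hc' := (map_ne_zero (algebraMap ℂ (V.fld ℂ))).2 hc
  have hord : ∀ v : Place ℂ (V.fld ℂ), v.ord (algebraMap ℂ (V.fld ℂ) c * f) = v.ord f := fun v => by
    rw [v.ord_mul hc' hf, FA.ModField.place_ord_algebraMap, zero_add]
  have hle : (infPlace V).ord f ≤ 0 := by
    by_contra hlt
    have h2 := FA.Curve.degree_divOf (V.isFunctionField ℂ) f
    rw [FA.Curve.degree_eq_finset_sum (V.isFunctionField ℂ) _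
      (Finset.subset_insert (infPlace V) (FA.Curve.divOf (V.isFunctionField ℂ) f).support)] at h2
    have h3 := Finset.single_le_sum (f := fun v => FA.Curve.divOf (V.isFunctionField ℂ) f v)
      (s := insert (infPlace V) (FA.Curve.divOf (V.isFunctionField ℂ) f).support) (fun v _ => by
        rcases eq_or_ne v (infPlace V) with rfl | hv
        · simp only [FA.Curve.divOf_apply]; omega
        · simpa using hpos v hv) (Finset.mem_insert_self _ _)
    simp only [FA.Curve.divOf_apply] at h2 h3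
    omega
  refine ⟨(-(infPlace V).ord f).toNat, c, hc, ⟨⟨mul_ne_zero hc' hf, fun v => by
    rw [hord]; exact hd v⟩, fun v hv => by rw [hord]; exact hpos v hv, ?_, ?_⟩, ?_⟩
  · rw [hord, Int.toNat_of_nonneg (by omega)]; ring
  · rw [MulMemClass.coe_mul, HahnSeries.leadingCoeff_mul, FA.JTorsion.leadingCoeff_algebraMap]
    exact inv_mul_cancel₀ (HahnSeries.leadingCoeff_ne_zero.2 hne)
  · rw [Int.toNat_of_nonneg (by omega)]; ring

/-- The least possible pole order of a normalised function with divisor `D` modulo `l`. -/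
def minPole (V : Lvl) (l : ℕ) (D : Divisor ℂ (V.fld ℂ)) : ℕ := sInf {k | ∃ f, NormD V l D f k}

theorem minPole_le {l : ℕ} {D : Divisor ℂ (V.fld ℂ)} {f : V.fld ℂ} {k : ℕ}
    (h : NormD V l D f k) : minPole V l D ≤ k := Nat.sInf_le ⟨f, h⟩

theorem exists_normD_min {l : ℕ} (hl : l ≠ 0) (D : Divisor ℂ (V.fld ℂ))
    (hdeg : Divisor.degree D = 0) : ∃ f, NormD V l D f (minPole V l D) := by
  classical
  set hF := V.isFunctionField ℂ
  obtain ⟨f, hf, hfd⟩ := divMod_of_degree_zero hl D hdeg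
  obtain ⟨g, hg, hgpos⟩ : ∃ g : V.fld ℂ, g ≠ 0 ∧
      ∀ v, v ≠ infPlace V → 0 ≤ v.ord f + l * v.ord g := by
    set P : Divisor ℂ (V.fld ℂ) := (divOf hF f).mapRange (fun x => |x|) abs_zero with hP
    set E : Divisor ℂ (V.fld ℂ) := -P + Finsupp.single (infPlace V)
      ((genus ℂ (V.fld ℂ) : ℤ) + Divisor.degree P + 1) with hE
    have hdegE : Divisor.degree E = (genus ℂ (V.fld ℂ) : ℤ) + 1 := by
      rw [hE, map_add, map_neg, Divisor.degree_single, hF.deg_eq_one, Nat.cast_one, mul_one]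
      ring
    have hpos : 0 < ell E := by
      have := riemann_inequality hF E
      omega
    obtain ⟨g, hgE, hg⟩ := exists_ne_zero_of_ell_pos hpos
    refine ⟨g, hg, fun v hv => ?_⟩
    have h1 := (atLeast_iff hg).1 (mem_riemannRochSpace.1 hgE v)
    rw [hE, Finsupp.add_apply, Finsupp.single_eq_of_ne hv, add_zero, Finsupp.neg_apply, neg_neg,
      hP, Finsupp.mapRange_apply, divOf_apply] at h1
    have h2 : |v.ord f| ≤ l * v.ord g :=
      h1.trans (le_mul_of_one_le_left ((abs_nonneg _).trans h1)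
        (by exact_mod_cast Nat.one_le_iff_ne_zero.2 hl))
    have := neg_abs_le (v.ord f)
    linarith
  obtain ⟨k, c, -, hk, -⟩ := exists_normD (l := l) (D := D)
    (f := f * g ^ l) (mul_ne_zero hf (pow_ne_zero _ hg))
    (fun v => by
      rw [v.ord_mul hf (pow_ne_zero _ hg), FA.ModField.place_ord_pow]
      have := dvd_sub (hfd v) (dvd_mul_right (l : ℤ) (v.ord g))
      rwa [show D v - v.ord f - (l : ℤ) * v.ord g = D v - (v.ord f + (l : ℤ) * v.ord g) by ring]
        at this)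
    (fun v hv => by
      rw [v.ord_mul hf (pow_ne_zero _ hg), FA.ModField.place_ord_pow]
      exact hgpos v hv)
  exact Nat.sInf_mem (s := {k | ∃ f, NormD V l D f k}) ⟨k, _, hk⟩

theorem eq_of_minimal {l : ℕ} (hl : l ≠ 0) {D : Divisor ℂ (V.fld ℂ)} {f f' : V.fld ℂ}
    (hk : NormD V l D f (minPole V l D)) (hk' : NormD V l D f' (minPole V l D))
    (h : FA.JTorsion.SameCls V l f f') : f = f' := by
  classical
  obtain ⟨c, g, hc, hg, hfg⟩ := h
  have hc' := (map_ne_zero (algebraMap ℂ (V.fld ℂ))).2 hc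
  have hord : ∀ v : Place ℂ (V.fld ℂ), v.ord f' = v.ord f + l * v.ord g := fun v => by
    rw [hfg, v.ord_mul (mul_ne_zero hc' hk.1.1) (pow_ne_zero l hg), v.ord_mul hc' hk.1.1,
      FA.ModField.place_ord_algebraMap, FA.ModField.place_ord_pow, zero_add]
  have hginf : (infPlace V).ord g = 0 := by
    have := hord (infPlace V)
    rw [hk.2.2.1, hk'.2.2.1] at this
    have h0 : (l : ℤ) * (infPlace V).ord g = 0 := by linarith
    exact (mul_eq_zero.1 h0).resolve_left (Int.natCast_ne_zero.2 hl)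
  obtain ⟨a, ha⟩ := exists_residue (V.isFunctionField ℂ).isCurve (infPlace V)
    (mem_place_of_ord_nonneg _ hginf.ge)
  rcases ha with ha | ha
  · have hlead := hk'.2.2.2
    rw [hfg, MulMemClass.coe_mul, MulMemClass.coe_mul, SubmonoidClass.coe_pow,
      HahnSeries.leadingCoeff_mul, HahnSeries.leadingCoeff_mul, FA.JTorsion.leadingCoeff_pow', ha,
      FA.JTorsion.leadingCoeff_algebraMap, FA.JTorsion.leadingCoeff_algebraMap, hk.2.2.2,
      mul_one] at hlead
    rw [hfg, ha, mul_assoc, mul_comm f, ← mul_assoc, ← map_pow, ← map_mul, hlead, map_one, one_mul]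
  · exfalso
    set g₂ := g - algebraMap ℂ (V.fld ℂ) a with hg₂
    have hg20 : g₂ ≠ 0 := fun h0 => by simp [h0] at ha
    have hne := mul_ne_zero hk.1.1 (pow_ne_zero l hg20)
    have hpos : ∀ v, v ≠ infPlace V → 0 ≤ v.ord (f * g₂ ^ l) := by
      intro v hv
      rw [v.ord_mul hk.1.1 (pow_ne_zero l hg20), FA.ModField.place_ord_pow]
      have h1 : min (v.ord g) 0 ≤ v.ord g₂ := by
        have := (AtLeast.sub ((atLeast_ord (v := v) g).mono (min_le_left _ 0))
          ((atLeast_algebraMap (v := v) a).mono (min_le_right (v.ord g) 0)))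
        exact (atLeast_iff hg20).1 this
      rcases min_cases (v.ord g) 0 with ⟨h2, -⟩ | ⟨h2, -⟩
      · have h4 := hk'.2.1 v hv
        rw [hord] at h4
        have := mul_le_mul_of_nonneg_left h1 (Int.natCast_nonneg l)
        rw [h2] at this
        linarith
      · have h4 := hk.2.1 v hv
        have := mul_le_mul_of_nonneg_left h1 (Int.natCast_nonneg l)
        rw [h2, mul_zero] at this
        linarith
    obtain ⟨k₂, d, -, hk₂, hk₂'⟩ := exists_normD (l := l) (D := D) hne (fun v => by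
      rw [v.ord_mul hk.1.1 (pow_ne_zero l hg20), FA.ModField.place_ord_pow]
      have := dvd_sub (hk.1.2 v) (dvd_mul_right (l : ℤ) (v.ord g₂))
      rwa [show D v - v.ord f - (l : ℤ) * v.ord g₂ = D v - (v.ord f + (l : ℤ) * v.ord g₂) by ring]
        at this) hpos
    have h5 := minPole_le hk₂
    rw [(infPlace V).ord_mul hk.1.1 (pow_ne_zero l hg20), FA.ModField.place_ord_pow,
      hk.2.2.1] at hk₂'
    have h6 : 0 < (l : ℤ) * (infPlace V).ord g₂ := mul_pos (Int.natCast_pos.2 (Nat.pos_of_ne_zero hl)) ha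
    omega

theorem finite_minimal {l : ℕ} (hl : l ≠ 0) (D : Divisor ℂ (V.fld ℂ)) :
    {f : V.fld ℂ | NormD V l D f (minPole V l D)}.Finite := by
  classical
  rcases Set.eq_empty_or_nonempty {f : V.fld ℂ | NormD V l D f (minPole V l D)} with h | ⟨f₁, h₁⟩
  · rw [h]; exact Set.finite_empty
  haveI : NeZero l := ⟨hl⟩
  haveI := FA.JTorsion.tors_finite V ℂ l
  set T := {f : V.fld ℂ | NormD V l D f (minPole V l D)}
  have key : ∀ f : T, ∃ E : Divisor.degZero (K := ℂ) (F := V.fld ℂ),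
      ∀ v, (l : ℤ) * (E : Divisor ℂ (V.fld ℂ)) v = v.ord (f : V.fld ℂ) - v.ord f₁ := fun f => by
    obtain ⟨E, hE⟩ := FA.JTorsion.exists_divisor_quot (V := V) (N := l) (f := (f : V.fld ℂ) * f₁⁻¹)
      ⟨mul_ne_zero f.2.1.1 (inv_ne_zero h₁.1.1), fun v => by
        rw [v.ord_mul f.2.1.1 (inv_ne_zero h₁.1.1), v.ord_inv]
        have := dvd_sub (h₁.1.2 v) (f.2.1.2 v)
        rwa [show D v - v.ord f₁ - (D v - v.ord (f : V.fld ℂ)) =
          v.ord (f : V.fld ℂ) + -v.ord f₁ by ring] at this⟩ hl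
    refine ⟨E, fun v => ?_⟩
    rw [hE, v.ord_mul f.2.1.1 (inv_ne_zero h₁.1.1), v.ord_inv, ← sub_eq_add_neg]
  choose E hE using key
  let cls : T → tors V ℂ l := fun f => ⟨Pic0.mk (E f), by
    rw [Pic0.mem_torsion]
    refine (QuotientAddGroup.eq_zero_iff _).2 ?_
    rw [AddSubgroup.mem_addSubgroupOf]
    exact ⟨(f : V.fld ℂ) * f₁⁻¹, mul_ne_zero f.2.1.1 (inv_ne_zero h₁.1.1), fun v => by
      rw [v.ord_mul f.2.1.1 (inv_ne_zero h₁.1.1), v.ord_inv, ← sub_eq_add_neg]
      simp [← hE f v]⟩⟩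
  refine Set.finite_coe_iff.1 (Finite.of_injective cls fun f f' h => ?_)
  have h2 := QuotientAddGroup.eq.1 (congrArg Subtype.val h)
  rw [AddSubgroup.mem_addSubgroupOf] at h2
  obtain ⟨g, hg, hgD⟩ := h2
  refine Subtype.ext (eq_of_minimal hl f.2 f'.2 ?_)
  set u : V.fld ℂ := (f' : V.fld ℂ) * ((f : V.fld ℂ) * g ^ l)⁻¹
  have hu : ∀ v : Place ℂ (V.fld ℂ), AtLeast v 0 u := fun v => by
    refine Or.inr ?_
    rw [v.ord_mul f'.2.1.1 (inv_ne_zero (mul_ne_zero f.2.1.1 (pow_ne_zero l hg))), v.ord_inv,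
      v.ord_mul f.2.1.1 (pow_ne_zero l hg), FA.ModField.place_ord_pow,
      show v.ord g = -(E f : Divisor ℂ (V.fld ℂ)) v + (E f' : Divisor ℂ (V.fld ℂ)) v by
        rw [← hgD v]; simp]
    have e1 := hE f v
    have e2 := hE f' v
    linarith
  have h3 := mem_span_of_isConst hu fun _ hg' => exists_ord_neg (V.isFunctionField ℂ) hg'
  rw [Submodule.mem_span_singleton] at h3
  obtain ⟨a, ha⟩ := h3
  rw [Algebra.smul_def, mul_one,
    eq_mul_inv_iff_mul_eq₀ (mul_ne_zero f.2.1.1 (pow_ne_zero l hg))] at ha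
  refine ⟨a, g, fun h0 => f'.2.1.1 ?_, hg, by rw [← ha, mul_assoc]⟩
  rw [← ha, h0, map_zero, zero_mul]

variable (V) (L)

/-- Every class over an algebraically closed subfield of `ℂ` is divisible. -/
theorem pic0_exists_nsmul_eq {n : ℕ} (hn : n ≠ 0) (x : Pic0 L (V.fld L)) :
    ∃ y : Pic0 L (V.fld L), n • y = x := by
  classical
  obtain ⟨⟨D₀, hD₀⟩, rfl⟩ := Pic0.mk_surjective x
  rw [Divisor.mem_degZero] at hD₀
  set hF := V.isFunctionField L
  set hFC := V.isFunctionField ℂ
  -- move away from `0`, `1728`, `∞`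
  set T := (divOf hF (V.jF L)).support ∪
    (divOf hF (V.jF L - algebraMap L (V.fld L) 1728)).support
  choose t ht using fun v : Place L (V.fld L) => exists_uniformizer v
  have ht0 : ∀ v, t v ≠ 0 := fun v h0 => by have := ht v; rw [h0] at this; simp at this
  obtain ⟨g₀, hg₀⟩ := exists_approx T (fun v => t v ^ D₀ v) (1 + ∑ v ∈ T, |D₀ v|)
  obtain ⟨g₁, hg₁0, hg₁⟩ : ∃ g : V.fld L, g ≠ 0 ∧ ∀ v ∈ T, v.ord g = D₀ v := by
    rcases T.eq_empty_or_nonempty with hT | ⟨v₁, hv₁⟩
    · exact ⟨1, one_ne_zero, fun v hv => by simp [hT] at hv⟩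
    have key : ∀ v ∈ T, g₀ ≠ 0 ∧ v.ord g₀ = D₀ v := fun v hv => by
      have ho : v.ord (t v ^ D₀ v) = D₀ v := by rw [v.ord_zpow, ht, mul_one]
      have hb : D₀ v + 1 ≤ 1 + ∑ u ∈ T, |D₀ u| := by
        have h1 := Finset.single_le_sum (f := fun u => |D₀ u|) (fun _ _ => abs_nonneg _) hv
        have h2 := le_abs_self (D₀ v)
        linarith
      have h2 := ord_add_eq_left (zpow_ne_zero (D₀ v) (ht0 v))
        (show AtLeast v (v.ord (t v ^ D₀ v) + 1) _ from (hg₀ v hv).mono (by rw [ho]; exact hb))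
      rwa [add_sub_cancel, ho] at h2
    exact ⟨g₀, (key v₁ hv₁).1, fun v hv => (key v hv).2⟩
  set D : Divisor L (V.fld L) := D₀ - divOf hF g₁ with hD
  have hDdeg : Divisor.degree D = 0 := by rw [hD, map_sub, hD₀, degree_divOf, sub_zero]
  have hpts : ∀ v : {v // v ∈ D.support}, ∃ (a : L) (τ : ℍ), a ≠ 0 ∧ a ≠ 1728 ∧
      0 < (v : Place L (V.fld L)).ord (V.jF L - algebraMap L (V.fld L) a) ∧
      jfun τ = algebraMap L ℂ a ∧ IsPtPlace V L τ v 1 := by
    rintro ⟨v, hv⟩
    rw [Finsupp.mem_support_iff] at hv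
    have hvT : v ∉ T := fun h => hv (by rw [hD, Finsupp.sub_apply, divOf_apply, hg₁ v h, sub_self])
    simp only [T, Finset.mem_union, not_or, Finsupp.mem_support_iff, not_not, divOf_apply] at hvT
    obtain ⟨a, ha⟩ := exists_residue hF.isCurve v (mem_place_of_ord_nonneg v hvT.1.ge)
    replace ha := ha.resolve_left fun heq =>
      V.jF_transcendental L (heq ▸ isAlgebraic_algebraMap a)
    have ha0 : a ≠ 0 := fun h => by rw [h, map_zero, sub_zero] at ha; omega
    have ha1 : a ≠ 1728 := fun h => by rw [h] at ha; omega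
    obtain ⟨τ, hτ, hv'⟩ := exists_point_of_place v ha ha0 ha1
    exact ⟨a, τ, ha0, ha1, ha, hτ, hv'⟩
  choose a τ ha0 ha1 hpos hjτ hτ using hpts
  have hram : ∀ v, ramC V (τ v) = 1 := fun v =>
    ramC_eq_one (by rw [hjτ]; exact (_root_.map_ne_zero _).2 (ha0 v))
      (by rw [hjτ, ← map_ofNat (algebraMap L ℂ) 1728]
          exact fun h => ha1 v ((algebraMap L ℂ).injective h))
  have hover : ∀ v f, (plC V (τ v)).ord (toC V L f) = (v : Place L (V.fld L)).ord f := by
    intro v f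
    have h1 := (isPtPlace_plC (V := V) (τ v)).2 (toC V L f)
    rw [emb_toC, (hτ v).2, hram] at h1
    simpa using h1.symm
  set DC : Divisor ℂ (V.fld ℂ) :=
    ∑ v : {v // v ∈ D.support}, Finsupp.single (plC V (τ v)) (D v) with hDC
  have hDCdeg : Divisor.degree DC = 0 := by
    rw [hDC, map_sum]
    simp only [Divisor.degree_single, hFC.deg_eq_one, Nat.cast_one, mul_one]
    rw [Finset.sum_coe_sort D.support (fun v => D v), ← degree_eq_finset_sum hF D
      (Finset.Subset.refl _), hDdeg]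
  have hfixpl : ∀ σ : ℂ ≃+* ℂ, (∀ b : L, σ (algebraMap L ℂ b) = algebraMap L ℂ b) →
      ∀ v, galC V σ • plC V (τ v) = plC V (τ v) := by
    intro σ hσ v
    refine eq_of_over (hpos v) (ha0 v) (ha1 v) (fun f => ?_) (hover v)
    have hf : galC V σ • toC V L f = toC V L f := by
      apply Subtype.ext
      rw [coe_galC, coe_toC, coeffMap_coeffMap]
      exact coeffMap_congr (RingHom.ext hσ) _
    rw [← hover v f]
    conv_lhs => rw [← hf]
    exact SemilinearAut.ord_smul _ _ _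
  have hDCfix : ∀ σ : ℂ ≃+* ℂ, (∀ b : L, σ (algebraMap L ℂ b) = algebraMap L ℂ b) →
      ∀ w, DC ((galC V σ)⁻¹ • w) = DC w := by
    intro σ hσ w
    rw [hDC, Finset.sum_apply', Finset.sum_apply']
    refine Finset.sum_congr rfl fun v _ => ?_
    simp only [Finsupp.single_apply]
    congr 1
    rw [eq_inv_smul_iff, hfixpl σ hσ]
  -- the descended function
  set N : ℕ := 6 * V.M * n with hN
  have hN0 : N ≠ 0 := Nat.mul_ne_zero (Nat.mul_ne_zero (by norm_num) V.M_ne) hn
  obtain ⟨f, hf⟩ := exists_normD_min hN0 DC hDCdeg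
  have hcoeff : ∀ i, ∃ b : L, algebraMap L ℂ b = (f : LaurentSeries ℂ).coeff i := fun i => by
    refine mem_range_of_finite_orbit L _ (((finite_minimal hN0 DC).image
      fun g : V.fld ℂ => (g : LaurentSeries ℂ).coeff i).subset ?_)
    rintro _ ⟨σ, hσ, rfl⟩
    refine ⟨galC V σ • f, ?_, rfl⟩
    obtain ⟨⟨hf0, hfd⟩, hfpos, hfinf, hflead⟩ := hf
    have hord : ∀ v : Place ℂ (V.fld ℂ), v.ord (galC V σ • f) = ((galC V σ)⁻¹ • v).ord f := fun v => by
      have := SemilinearAut.ord_smul (galC V σ) ((galC V σ)⁻¹ • v) f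
      rwa [smul_inv_smul] at this
    refine ⟨⟨fun h0 => hf0 (by simpa using congrArg ((galC V σ)⁻¹ • ·) h0),
      fun v => by rw [hord, ← hDCfix σ hσ]; exact hfd _⟩, fun v hv => ?_, ?_, ?_⟩
    · rw [hord]
      refine hfpos _ fun h0 => hv ?_
      rw [← smul_inv_smul (galC V σ) v, h0, galC_infPlace]
    · rw [ord_infPlace, coe_galC, order_coeffMap, ← ord_infPlace, hfinf]
    · rw [coe_galC, HahnSeries.leadingCoeff_eq, order_coeffMap, coeffMap_coeff,
        ← HahnSeries.leadingCoeff_eq, hflead, map_one]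
  choose s hs using hcoeff
  have hpwo : (Function.support s).IsPWO :=
    (f : LaurentSeries ℂ).isPWO_support.mono fun i hi h0 => hi (by
      apply (algebraMap L ℂ).injective
      rw [hs, h0, map_zero])
  obtain ⟨g, hg⟩ := exists_toC_of_coeff V (f := f) (s := (⟨s, hpwo⟩ : LaurentSeries L))
    (HahnSeries.ext (funext hs))
  have hg0 : g ≠ 0 := fun h => hf.1.1 (by rw [← hg, h, map_zero])
  -- divisibility
  have hdiv : ∀ v : Place L (V.fld L), (n : ℤ) ∣ D v - v.ord g := by
    intro v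
    by_cases hv : v ∈ D.support
    · have h1 := hf.1.2 (plC V (τ ⟨v, hv⟩))
      rw [← hg, hover] at h1
      have h2 : DC (plC V (τ ⟨v, hv⟩)) = D v := by
        rw [hDC, Finset.sum_apply', Finset.sum_eq_single (⟨v, hv⟩ : {v // v ∈ D.support})]
        · simp
        · intro u _ hu
          refine Finsupp.single_eq_of_ne fun h => hu ?_
          refine Subtype.ext (place_eq_of_scaled one_pos one_pos fun f => ?_)
          rw [← hover u f, ← hover ⟨v, hv⟩ f, h]
        · simp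
      rw [h2] at h1
      exact dvd_trans ⟨(6 * V.M : ℕ), by rw [hN]; push_cast; ring⟩ h1
    · rw [Finsupp.notMem_support_iff.1 hv, zero_sub, dvd_neg]
      have key : ∀ (P : LPar V) (γ : SL(2, ℤ)) (k : ℤ), 0 < k →
          (∀ h, (emb (L := L) P γ h).order = k * v.ord h) →
          ((6 * V.M : ℕ) : ℤ) * n ∣ (emb P γ g).order := by
        intro P γ k hk h
        rw [← emb_toC, hg]
        rcases exists_place_of_embedding (emb (L := ℂ) P γ) with h' | ⟨w, k', hk', h'⟩
        · rw [h']; exact dvd_zero _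
        rw [h']
        have hw : DC w = 0 := by
          rw [hDC, Finset.sum_apply']
          refine Finset.sum_eq_zero fun u _ => Finsupp.single_eq_of_ne fun hwu => hv ?_
          rw [show v = u from place_eq_of_scaled hk hk' fun e => by
            rw [← h, ← emb_toC, h', hwu, hover u]]
          exact u.2
        have h1 := hf.1.2 w
        rw [hw, zero_sub, dvd_neg, hN, Nat.cast_mul] at h1
        exact dvd_mul_of_dvd_right h1 _
      rcases lt_or_ge (v.ord (V.jF L)) 0 with hneg | hnn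
      · obtain ⟨i, rfl⟩ := (V.cuspFam L).pl_surjective v (by rw [v.ord_inv]; omega)
        have h1 := key _ _ _ ((V.cuspFam L).scale_pos i) (fun h => (V.cuspFam L).order_σ i h)
        rw [show (emb (cuspPar V) (Quotient.out i)⁻¹ g) = (V.cuspFam L).σ i g from rfl,
          (V.cuspFam L).order_σ] at h1
        obtain ⟨d, hd⟩ : (V.cuspFam L).scale i ∣ ((6 * V.M : ℕ) : ℤ) :=
          Dvd.dvd.trans ⟨_, ((V.cuspFam L).scale_mul_ord_y i).symm⟩
            (Int.natCast_dvd_natCast.2 (dvd_mul_left V.M 6))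
        rw [hd, mul_assoc, mul_dvd_mul_iff_left ((V.cuspFam L).scale_pos i).ne'] at h1
        exact dvd_trans (dvd_mul_left (n : ℤ) d) h1
      · obtain ⟨b, hb⟩ := exists_residue hF.isCurve v (mem_place_of_ord_nonneg v hnn)
        replace hb := hb.resolve_left fun heq =>
          V.jF_transcendental L (heq ▸ isAlgebraic_algebraMap b)
        have main : ∀ (τ₀ : ℍ) (hτ₀ : jfun τ₀ = algebraMap L ℂ b) (g₀ : SL(2, ℤ))
            (hg₀ : g₀ • τ₀ = τ₀) (m : ℕ) (hm : 0 < m) (hord : (jLocal τ₀).order = m)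
            (hζ : IsPrimitiveRoot (rotUnit g₀ τ₀ : ℂ) m), m ∣ 6 * V.M → (n : ℤ) ∣ v.ord g := by
          intro τ₀ hτ₀ g₀ hg₀ m hm hord hζ hdvd
          obtain ⟨i, hi⟩ :=
            (V.pointFam L b τ₀ hτ₀ g₀ hg₀ m hm hord hζ).pl_surjective v hb
          set E := V.pointFam L b τ₀ hτ₀ g₀ hg₀ m hm hord hζ
          subst hi
          have h1 := key _ _ _ (E.scale_pos i) (fun h => E.order_σ i h)
          rw [show (emb (pointPar V τ₀) (Quotient.out i)⁻¹ g) = E.σ i g from rfl, E.order_σ] at h1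
          obtain ⟨d, hd⟩ : E.scale i ∣ ((6 * V.M : ℕ) : ℤ) :=
            Dvd.dvd.trans ⟨_, (E.scale_mul_ord_y i).symm⟩ (Int.natCast_dvd_natCast.2 hdvd)
          rw [hd, mul_assoc, mul_dvd_mul_iff_left (E.scale_pos i).ne'] at h1
          exact dvd_trans (dvd_mul_left (n : ℤ) d) h1
        rcases eq_or_ne b 0 with rfl | hb0
        · obtain ⟨γ, hγ⟩ : ∃ γ : SL(2, ℤ), γ = ModularGroup.S * ModularGroup.T := ⟨_, rfl⟩
          exact main rho (by rw [jfun_rho, map_zero]) γ (hγ ▸ ST_smul_rho) 3 (by norm_num)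
            order_jLocal_rho (rotUnit_rho hγ) ⟨2 * V.M, by ring⟩
        rcases eq_or_ne b 1728 with rfl | hb1
        · exact main UpperHalfPlane.I (by rw [jfun_I, map_ofNat]) ModularGroup.S S_smul_I 2
            (by norm_num) order_jLocal_I rotUnit_I ⟨3 * V.M, by ring⟩
        obtain ⟨τ₀, hτ₀⟩ := exists_jfun_eq (algebraMap L ℂ b)
        have hj0 : jfun τ₀ ≠ 0 := by rw [hτ₀]; exact (_root_.map_ne_zero _).2 hb0
        have hj1 : jfun τ₀ ≠ 1728 := by
          rw [hτ₀, ← map_ofNat (algebraMap L ℂ) 1728]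
          exact fun h => hb1 ((algebraMap L ℂ).injective h)
        exact main τ₀ hτ₀ 1 (one_smul _ τ₀) 1 one_pos (order_jLocal_general hj0 hj1)
          (rotUnit_one τ₀) (one_dvd _)
  -- the divided divisor
  set D' : Divisor L (V.fld L) := (D - divOf hF g).mapRange (fun z => z / (n : ℤ)) (by simp)
  have hD' : ∀ v, (n : ℤ) * D' v = D v - v.ord g := fun v => by
    rw [Finsupp.mapRange_apply, Finsupp.sub_apply, divOf_apply, Int.mul_ediv_cancel' (hdiv v)]
  have hdeg' : D' ∈ Divisor.degZero (K := L) (F := V.fld L) := by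
    rw [Divisor.mem_degZero]
    have h1 : (n : ℤ) • D' = D - divOf hF g := Finsupp.ext fun v => by simp [hD' v, divOf_apply]
    have h2 := congrArg Divisor.degree h1
    rw [map_zsmul, map_sub, degree_divOf, sub_zero, hDdeg, smul_eq_mul] at h2
    exact (mul_eq_zero.1 h2).resolve_left (Int.natCast_ne_zero.2 hn)
  refine ⟨Pic0.mk ⟨D', hdeg'⟩, QuotientAddGroup.eq.2 ?_⟩
  rw [AddSubgroup.mem_addSubgroupOf]
  refine ⟨g * g₁, mul_ne_zero hg0 hg₁0, fun v => ?_⟩
  have h1 := hD' v
  simp only [hD, Finsupp.sub_apply, divOf_apply] at h1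
  rw [v.ord_mul hg0 hg₁0]
  simp only [AddSubgroup.coe_add, NegMemClass.coe_neg, AddSubmonoidClass.coe_nsmul,
    Finsupp.add_apply, Finsupp.neg_apply, Finsupp.smul_apply, nsmul_eq_mul]
  linarith

end FA.JTorsion.Divisible

namespace FA.JTorsion

/-- Multiplication by a prime is surjective on `JZero N`. -/
theorem jZero_exists_nsmul_eq (N : ℕ) [NeZero N] {l : ℕ} (hl : l.Prime)
    (x : ModularCurve.JZero N) : ∃ y : ModularCurve.JZero N, l • y = x := by
  haveI : Algebra.IsAlgebraic ℚ (AlgebraicClosure ℚ) := AlgebraicClosure.isAlgebraic ℚ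
  letI : Algebra (AlgebraicClosure ℚ) ℂ :=
    (IsAlgClosed.lift (R := ℚ) (M := ℂ) (S := AlgebraicClosure ℚ)).toRingHom.toAlgebra
  exact Divisible.pic0_exists_nsmul_eq (FA.Level.lvlGamma0 N) (AlgebraicClosure ℚ) hl.ne_zero x

end FA.JTorsion
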