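import Fermat.Agent.JTorsion.Divisible.Local

/-!
# Every divisor of degree zero over `ℂ` is principal modulo `l`
-/

set_option autoImplicit false
set_option linter.style.haveILetI false
set_option linter.unusedSectionVars false
set_option synthInstance.maxHeartbeats 200000
set_option maxHeartbeats 1600000

noncomputable section

namespace FA.JTorsion.Divisible

open UpperHalfPlane hiding I
open Complex Filter Set ModularCurve AlgebraicCurve FA.Level FA.ModField
open FA.Curve
open scoped MatrixGroups Topology Manifold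

variable {V : Lvl} {l : ℕ}

theorem DivMod.of_dvd {D D' : Divisor ℂ (V.fld ℂ)} (h : DivMod V l D)
    (hd : ∀ v, (l : ℤ) ∣ D v - D' v) : DivMod V l D' := by
  obtain ⟨f, hf, hfd⟩ := h
  exact ⟨f, hf, fun v => by
    have := dvd_sub (hfd v) (hd v)
    rwa [show D v - v.ord f - (D v - D' v) = D' v - v.ord f by ring] at this⟩

theorem DivMod.zero : DivMod V l (0 : Divisor ℂ (V.fld ℂ)) := ⟨1, one_ne_zero, fun v => by simp⟩

theorem DivMod.add {D D' : Divisor ℂ (V.fld ℂ)} (h : DivMod V l D) (h' : DivMod V l D') :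
    DivMod V l (D + D') := by
  obtain ⟨f, hf, hfd⟩ := h
  obtain ⟨g, hg, hgd⟩ := h'
  refine ⟨f * g, mul_ne_zero hf hg, fun v => ?_⟩
  rw [v.ord_mul hf hg, Finsupp.add_apply]
  have := dvd_add (hfd v) (hgd v)
  rwa [show D v - v.ord f + (D' v - v.ord g) = D v + D' v - (v.ord f + v.ord g) by ring] at this

theorem DivMod.zsmul {D : Divisor ℂ (V.fld ℂ)} (h : DivMod V l D) (n : ℤ) :
    DivMod V l (n • D) := by
  obtain ⟨f, hf, hfd⟩ := h
  refine ⟨f ^ n, zpow_ne_zero n hf, fun v => ?_⟩
  rw [v.ord_zpow, Finsupp.smul_apply, smul_eq_mul, ← mul_sub]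
  exact dvd_mul_of_dvd_right (hfd v) n

theorem DivMod.sum {ι : Type*} (s : Finset ι) {D : ι → Divisor ℂ (V.fld ℂ)}
    (h : ∀ i ∈ s, DivMod V l (D i)) : DivMod V l (∑ i ∈ s, D i) :=
  Finset.sum_induction D _ (fun _ _ => DivMod.add) DivMod.zero h

/-- All points have the same class. -/
theorem divMod_points (hl : l ≠ 0) (τ τ' : ℍ) :
    DivMod V l (Finsupp.single (plC V τ') 1 - Finsupp.single (plC V τ) 1) := by
  obtain ⟨m, rfl⟩ := Nat.exists_eq_succ_of_ne_zero hl
  set P : ℍ → Prop := fun z =>
    DivMod V (m + 1) (Finsupp.single (plC V z) 1 - Finsupp.single (plC V τ) 1) with hP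
  have hloc : IsLocallyConstant P := (IsLocallyConstant.iff_eventually_eq P).2 fun z => by
    filter_upwards [eventually_divMod (V := V) z m] with w hw
    refine propext ⟨fun h => ?_, fun h => ?_⟩
    · have h2 := h.add (hw.zsmul (-1))
      refine h2.of_dvd fun v => ?_
      simp
    · have h2 := h.add hw
      refine h2.of_dvd fun v => ?_
      simp
  have h := hloc.apply_eq_of_preconnectedSpace τ τ'
  have hτ : P τ := DivMod.zero.of_dvd fun v => by simp
  exact (iff_of_eq h).1 hτ

/-- Every divisor of degree zero is principal modulo `l`. -/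
theorem divMod_of_degree_zero (hl : l ≠ 0) (D : Divisor ℂ (V.fld ℂ))
    (hD : Divisor.degree D = 0) : DivMod V l D := by
  classical
  set hF := V.isFunctionField ℂ
  set v₀ := plC V UpperHalfPlane.I
  set T := (divOf hF (V.jF ℂ)).support ∪
    (divOf hF (V.jF ℂ - algebraMap ℂ (V.fld ℂ) 1728)).support
  have hgood : ∀ v, v ∉ T → DivMod V l (Finsupp.single v 1 - Finsupp.single v₀ 1) := fun v hv => by
    simp only [T, Finset.mem_union, not_or, Finsupp.mem_support_iff, not_not, divOf_apply] at hv
    obtain ⟨τ, rfl, -, -⟩ := exists_plC_eq hv.1 hv.2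
    exact divMod_points hl _ _
  have hbase : ∀ E : Divisor ℂ (V.fld ℂ), (∀ v ∈ E.support, DivMod V l
      (Finsupp.single v 1 - Finsupp.single v₀ 1)) → Divisor.degree E = 0 → DivMod V l E := by
    intro E hE hdeg
    refine (DivMod.sum E.support (D := fun v => E v • (Finsupp.single v 1 - Finsupp.single v₀ 1))
      fun v hv => (hE v hv).zsmul _).of_dvd fun w => ?_
    have h0 : (∑ v ∈ E.support, E v • (Finsupp.single v (1 : ℤ) - Finsupp.single v₀ 1)) = E := by
      simp only [smul_sub, Finset.sum_sub_distrib, ← Finset.sum_smul]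
      rw [← degree_eq_finset_sum hF E (Finset.Subset.refl _), hdeg, zero_smul, sub_zero]
      conv_rhs => rw [← Finsupp.sum_single E]
      simp [Finsupp.sum]
    rw [h0, sub_self]
    exact dvd_zero _
  refine hbase D (fun v _ => ?_) hD
  by_cases hv : v ∈ T
  swap
  · exact hgood v hv
  -- a function with a simple zero at `v` and units at the other exceptional places
  obtain ⟨t, ht⟩ := exists_uniformizer v
  obtain ⟨f, hf⟩ := exists_approx (insert v₀ T) (fun w => if w = v then t else 1) 2
  have hordv : v.ord f = 1 := by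
    have h := hf v (Finset.mem_insert_of_mem hv)
    rw [if_pos rfl] at h
    have ht0 : t ≠ 0 := fun h0 => by rw [h0] at ht; simp at ht
    have h2 := ord_add_eq_left ht0 (show AtLeast v (v.ord t + 1) _ from by rw [ht]; exact h)
    rw [add_sub_cancel, ht] at h2
    exact h2.2
  have hordT : ∀ w ∈ T, w ≠ v → w.ord f = 0 := fun w hw hne => by
    have h := hf w (Finset.mem_insert_of_mem hw)
    rw [if_neg hne] at h
    have h2 := ord_add_eq_left (one_ne_zero (α := V.fld ℂ))
      (show AtLeast w (w.ord (1 : V.fld ℂ) + 1) _ from h.mono (by simp))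
    rw [add_sub_cancel, w.ord_one] at h2
    exact h2.2
  have hf0 : f ≠ 0 := fun h0 => by rw [h0] at hordv; simp at hordv
  set E : Divisor ℂ (V.fld ℂ) := divOf hF f - Finsupp.single v 1 + Finsupp.single v₀ 1 with hE
  have hEdeg : Divisor.degree E = 0 := by
    simp [hE, degree_divOf, hF.deg_eq_one]
  have hEmod : DivMod V l E := by
    refine hbase E (fun w hw => ?_) hEdeg
    by_cases hwT : w ∈ T
    · rcases eq_or_ne w v₀ with rfl | hne₀
      · exact DivMod.zero.of_dvd fun x => by simp
      exfalso
      rw [Finsupp.mem_support_iff] at hw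
      apply hw
      rw [hE, Finsupp.add_apply, Finsupp.sub_apply, divOf_apply, Finsupp.single_eq_of_ne hne₀,
        add_zero]
      rcases eq_or_ne w v with rfl | hne
      · simp [hordv]
      · rw [hordT w hwT hne, Finsupp.single_eq_of_ne hne]; simp
    · exact hgood w hwT
  have hdiv : DivMod V l (divOf hF f) := ⟨f, hf0, fun x => by simp [divOf_apply]⟩
  exact (hdiv.add (hEmod.zsmul (-1))).of_dvd fun x => by simp [hE]; ring_nf; simp

end FA.JTorsion.Divisible
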