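import Fermat.Agent.JTorsion.Divisible.Rep
import Fermat.Agent.Curve.Genus

/-!
# Divisibility modulo `l` is locally constant on the upper half plane

For a nonspecial set of `g` points, the inverse function theorem moves `l` times their sum plus a
point `τ` within its linear system, to `l` times nearby points plus any point near `τ`.
-/

set_option autoImplicit false
set_option linter.style.haveILetI false
set_option linter.unusedSectionVars false
set_option synthInstance.maxHeartbeats 200000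
set_option maxHeartbeats 4000000

noncomputable section

namespace FA.JTorsion.Divisible

open UpperHalfPlane hiding I
open Complex Filter Set ModularCurve AlgebraicCurve FA.Level FA.ModField
open FA.Curve
open scoped MatrixGroups Topology Manifold

variable (V : Lvl)

/-- `D` is a principal divisor modulo `l`. -/
def DivMod (l : ℕ) (D : Divisor ℂ (V.fld ℂ)) : Prop :=
  ∃ f : V.fld ℂ, f ≠ 0 ∧ ∀ v, (l : ℤ) ∣ D v - v.ord f

variable {V}

/-- A place away from `0`, `1728`, `∞`. -/
theorem exists_plC_eq {v : Place ℂ (V.fld ℂ)} (h0 : v.ord (V.jF ℂ) = 0)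
    (h1 : v.ord (V.jF ℂ - algebraMap ℂ (V.fld ℂ) 1728) = 0) :
    ∃ τ, plC V τ = v ∧ jfun τ ≠ 0 ∧ jfun τ ≠ 1728 := by
  obtain ⟨a, ha⟩ := exists_residue (V.isFunctionField ℂ).isCurve v
    (mem_place_of_ord_nonneg v h0.ge)
  replace ha := ha.resolve_left fun heq =>
    V.jF_transcendental ℂ (heq ▸ isAlgebraic_algebraMap a)
  have ha0 : a ≠ 0 := fun h => by
    rw [h, map_zero, sub_zero] at ha; omega
  have ha1 : a ≠ 1728 := fun h => by rw [h] at ha; omega
  obtain ⟨τ, hτ, hv⟩ := exists_point_of_place v ha ha0 ha1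
  refine ⟨τ, (isPtPlace_plC τ).unique hv, ?_, ?_⟩ <;> rw [hτ] <;> simpa

theorem sum_single_apply {K F : Type*} [Field K] [Field F] [Algebra K F] (S : Finset (Place K F))
    (v : Place K F) [Decidable (v ∈ S)] :
    (∑ u ∈ S, Finsupp.single u (1 : ℤ)) v = if v ∈ S then 1 else 0 := by
  classical
  rw [Finset.sum_apply']
  simp [Finsupp.single_apply]

theorem hasStrictFDerivAt_comp_proj {E : Type*} [NormedAddCommGroup E] [NormedSpace ℂ E]
    {g : ℂ → ℂ} {c : ℂ} (hg : AnalyticAt ℂ g c) {u : E → ℂ} {u' : E →L[ℂ] ℂ} {x : E}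
    (hu : HasStrictFDerivAt u u' x) (hux : u x = c) :
    HasStrictFDerivAt (fun y => g (u y)) (deriv g c • u') x := by
  subst hux
  exact hg.hasStrictDerivAt.comp_hasStrictFDerivAt x hu

theorem iteratedDeriv_congr_at {f g : ℂ → ℂ} {x : ℂ} (h : f =ᶠ[𝓝 x] g) (n : ℕ) :
    iteratedDeriv n f x = iteratedDeriv n g x :=
  Filter.EventuallyEq.iteratedDeriv_eq n h

/-- Near `τ` the classes modulo `l` are those of `τ`. -/
theorem eventually_divMod (τ : ℍ) (m : ℕ) :
    ∀ᶠ z : ℍ in 𝓝 τ,
      DivMod V (m + 1) (Finsupp.single (plC V z) 1 - Finsupp.single (plC V τ) 1) := by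
  classical
  set l := m + 1 with hl
  set hF := V.isFunctionField ℂ
  set v₀ := plC V τ with hv₀
  obtain ⟨S, hcard, hdis, hell⟩ := exists_nonspecial hF ({v₀} ∪ ((divOf hF (V.jF ℂ)).support ∪
    (divOf hF (V.jF ℂ - algebraMap ℂ (V.fld ℂ) 1728)).support))
  have hS : ∀ v : S, ∃ t, plC V t = v ∧ jfun t ≠ 0 ∧ jfun t ≠ 1728 := fun v => by
    have h := Finset.disjoint_left.1 hdis v.2
    simp only [Finset.mem_union, Finset.mem_singleton, not_or, Finsupp.mem_support_iff,
      not_not, divOf_apply] at h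
    exact exists_plC_eq h.2.1 h.2.2
  have hv₀S : v₀ ∉ S := fun h => Finset.disjoint_left.1 hdis h (by simp)
  choose pt hpt hpt0 hpt1 using hS
  -- the points
  set σ : Option S → ℍ := fun p => p.elim τ pt with hσ
  set nn : Option S → ℕ := fun p => p.elim (ramC V τ) (fun _ => l) with hnn
  have hσv : ∀ v : S, plC V (σ (some v)) = v := hpt
  have hPinj : Function.Injective fun p => plC V (σ p) := by
    rintro (_ | v) (_ | v') h
    · rfl
    · exact absurd (v'.2) (fun hm => hv₀S (by rwa [show v₀ = (v' : Place ℂ _) from h.trans (hσv v')]))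
    · exact absurd (v.2) (fun hm => hv₀S (by rwa [show v₀ = (v : Place ℂ _) from h.symm.trans (hσv v)]))
    · exact congrArg some (Subtype.ext ((hσv v).symm.trans (h.trans (hσv v'))))
  have hram : ∀ v : S, ramC V (σ (some v)) = 1 := fun v => ramC_eq_one (hpt0 v) (hpt1 v)
  -- the divisor and its linear system
  set B : Divisor ℂ (V.fld ℂ) :=
    (l : ℤ) • (∑ u ∈ S, Finsupp.single u (1 : ℤ)) + Finsupp.single v₀ 1 with hB
  have hBS : ∀ v ∈ S, B v = l := fun v hv => by
    have hne : v ≠ v₀ := fun h => hv₀S (h ▸ hv)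
    rw [hB, Finsupp.add_apply, Finsupp.smul_apply, sum_single_apply, if_pos hv,
      Finsupp.single_eq_of_ne hne]
    simp
  have hB₀ : B v₀ = 1 := by
    rw [hB, Finsupp.add_apply, Finsupp.smul_apply, sum_single_apply, if_neg hv₀S]
    simp
  have hBo : ∀ v, v ∉ S → v ≠ v₀ → B v = 0 := fun v hv hne => by
    rw [hB, Finsupp.add_apply, Finsupp.smul_apply, sum_single_apply, if_neg hv,
      Finsupp.single_eq_of_ne hne]
    simp
  have hdegB : Divisor.degree B = (l : ℤ) * S.card + 1 := by
    rw [hB, map_add, map_zsmul, map_sum, Divisor.degree_single, hF.deg_eq_one]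
    simp [hF.deg_eq_one]
  set R := riemannRochSpace B with hR
  haveI := finite_riemannRochSpace hF B
  -- representatives
  have hrep : ∀ (p : Option S) (f : R), ∃ H, RepAt V (σ p) (σ p) (nn p) (f : V.fld ℂ) H := by
    intro p f
    refine exists_repAt _ _ _ ?_
    rcases mem_riemannRochSpace.1 f.2 (plC V (σ p)) with h | h
    · exact Or.inl h
    refine Or.inr ?_
    cases p with
    | none =>
      rw [show plC V (σ none) = v₀ from rfl, hB₀] at h
      show 0 ≤ (ramC V τ : ℤ) * (plC V τ).ord (f : V.fld ℂ) + ramC V τ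
      nlinarith [Int.natCast_nonneg (ramC V τ)]
    | some v =>
      rw [hσv, hBS _ v.2] at h
      rw [hram, hσv]
      show 0 ≤ ((1 : ℕ) : ℤ) * _ + (l : ℤ)
      omega
  choose H hH using hrep
  -- the linear map
  have hadd : ∀ p (f g : R), H p (f + g) =ᶠ[𝓝 (σ p : ℂ)] H p f + H p g := fun p f g =>
    (hH p (f + g)).congr ((hH p f).add (hH p g))
  have hsmul : ∀ p (r : ℂ) (f : R), H p (r • f) =ᶠ[𝓝 (σ p : ℂ)] fun z => r * H p f z :=
    fun p r f => (hH p (r • f)).congr (by
      have := (hH p f).smul r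
      rwa [← Algebra.smul_def] at this)
  have hcd : ∀ p f (k : ℕ), ContDiffAt ℂ k (H p f) (σ p : ℂ) := fun p f k => (hH p f).1.contDiffAt
  let Φ : R →ₗ[ℂ] (S × Fin m ⊕ Unit → ℂ) :=
    { toFun := fun f => Sum.elim
        (fun q => iteratedDeriv q.2 (H (some q.1) f) (σ (some q.1)))
        (fun _ => H none f (σ none))
      map_add' := fun f g => by
        funext q
        rcases q with ⟨v, k⟩ | _
        · simp only [Sum.elim_inl, Pi.add_apply]
          rw [iteratedDeriv_congr_at (hadd _ f g), iteratedDeriv_add (hcd _ _ _) (hcd _ _ _)]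
        · exact (hadd none f g).eq_of_nhds
      map_smul' := fun r f => by
        funext q
        rcases q with ⟨v, k⟩ | _
        · simp only [Sum.elim_inl, Pi.smul_apply, RingHom.id_apply, smul_eq_mul]
          rw [iteratedDeriv_congr_at (hsmul _ r f), iteratedDeriv_const_mul_field]
        · exact (hsmul none r f).eq_of_nhds }
  have hker : Module.finrank ℂ (LinearMap.ker Φ) ≤ 1 := by
    set R₁ := riemannRochSpace (∑ u ∈ S, Finsupp.single u (1 : ℤ)) with hR₁
    haveI := finite_riemannRochSpace hF (∑ u ∈ S, Finsupp.single u (1 : ℤ))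
    have hmem : ∀ f : LinearMap.ker Φ, ((f : R) : V.fld ℂ) ∈ R₁ := by
      rintro ⟨f, hf⟩
      rw [LinearMap.mem_ker] at hf
      rw [hR₁, mem_riemannRochSpace]
      intro v
      show AtLeast v _ (f : V.fld ℂ)
      rcases eq_or_ne (f : V.fld ℂ) 0 with h0 | h0
      · exact Or.inl h0
      refine Or.inr ?_
      have hv := (atLeast_iff h0).1 (mem_riemannRochSpace.1 f.2 v)
      rw [sum_single_apply]
      by_cases hvS : v ∈ S
      · rw [if_pos hvS]
        have hle : (m : ℕ∞) ≤ analyticOrderAt (H (some ⟨v, hvS⟩) f) (σ (some ⟨v, hvS⟩)) :=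
          (natCast_le_analyticOrderAt_iff_iteratedDeriv_eq_zero (hH _ f).1).2 fun k hk => by
            exact congrFun hf (Sum.inl (⟨v, hvS⟩, ⟨k, hk⟩))
        obtain ⟨o, ho, ho'⟩ := (hH (some ⟨v, hvS⟩) f).order h0
        rw [ho, Nat.cast_le] at hle
        rw [if_pos rfl, hram, hσv] at ho'
        simp only [hnn, Option.elim, Nat.cast_one, one_mul] at ho'
        omega
      · rw [if_neg hvS]
        rcases eq_or_ne v v₀ with rfl | hne
        · have h1 : analyticOrderAt (H none f) (σ none) ≠ 0 :=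
            (hH none f).1.analyticOrderAt_ne_zero.2 (congrFun hf (Sum.inr ()))
          obtain ⟨o, ho, ho'⟩ := (hH none f).order h0
          rw [if_pos rfl] at ho'
          have ho1 : 1 ≤ o := Nat.pos_of_ne_zero fun h => h1 (by rw [ho, h]; rfl)
          have h2 : 1 ≤ (ramC V τ : ℤ) * ((plC V τ).ord (f : V.fld ℂ) + 1) := by
            have : (o : ℤ) = (ramC V τ : ℤ) * (plC V τ).ord (f : V.fld ℂ) + ramC V τ := ho'
            linarith [(by exact_mod_cast ho1 : (1 : ℤ) ≤ o)]
          have h3 := pos_of_mul_pos_right (lt_of_lt_of_le one_pos h2) (Int.natCast_nonneg _)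
          show -0 ≤ v₀.ord (f : V.fld ℂ)
          rw [hv₀]; omega
        · rw [hBo v hvS hne] at hv
          exact hv
    let j : LinearMap.ker Φ →ₗ[ℂ] R₁ :=
      ((R.subtype).comp (LinearMap.ker Φ).subtype).codRestrict R₁ hmem
    have hj : Function.Injective j := fun x y h => by
      have := congrArg Subtype.val h
      exact Subtype.ext (Subtype.ext this)
    refine (LinearMap.finrank_le_finrank_of_injective hj).trans ?_
    have : (Module.finrank ℂ R₁ : ℤ) = 1 := hell
    omega
  have hsurj : Function.Surjective Φ := by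
    rw [← LinearMap.range_eq_top]
    refine Submodule.eq_top_of_finrank_eq (le_antisymm (Submodule.finrank_le _) ?_)
    have h1 := LinearMap.finrank_range_add_finrank_ker Φ
    have h2 := riemann_inequality hF B
    rw [hdegB, hcard, ell] at h2
    rw [Module.finrank_fintype_fun_eq_card]
    simp only [Fintype.card_sum, Fintype.card_prod, Fintype.card_coe, Fintype.card_fin,
      Fintype.card_unit, hcard]
    change (Module.finrank ℂ (LinearMap.range Φ) : ℕ) + _ = _ at h1
    have h3 : ((l * genus ℂ (V.fld ℂ) + 1 + 1 : ℕ) : ℤ) ≤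
        Module.finrank ℂ R + genus ℂ (V.fld ℂ) := by
      change _ ≤ (Module.finrank ℂ R : ℤ) at h2
      push_cast at h2 ⊢; omega
    have h3' : l * genus ℂ (V.fld ℂ) + 1 + 1 ≤ Module.finrank ℂ R + genus ℂ (V.fld ℂ) := by
      exact_mod_cast h3
    have h4 : l * genus ℂ (V.fld ℂ) = genus ℂ (V.fld ℂ) * m + genus ℂ (V.fld ℂ) := by
      rw [hl]; ring
    omega
  choose b hb using fun q : S × Fin m ⊕ Unit => hsurj (Pi.single q 1)
  -- the separating function
  set num : Option S → ℕ := fun p => (Fintype.equivFin (Option S) p : ℕ) with hnum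
  choose t ht using fun v : Place ℂ (V.fld ℂ) => exists_uniformizer v
  obtain ⟨φ, hφ⟩ := exists_approx (Finset.univ.image fun p => plC V (σ p))
    (fun v => if h : ∃ p, plC V (σ p) = v then
      algebraMap ℂ (V.fld ℂ) (num h.choose) + t v else 0) 2
  have hφord : ∀ p, (plC V (σ p)).ord (φ - algebraMap ℂ (V.fld ℂ) (num p)) = 1 := by
    intro p
    have h := hφ (plC V (σ p)) (Finset.mem_image_of_mem _ (Finset.mem_univ p))
    have hex : ∃ q, plC V (σ q) = plC V (σ p) := ⟨p, rfl⟩
    rw [dif_pos hex, hPinj hex.choose_spec] at h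
    have ht0 : t (plC V (σ p)) ≠ 0 := fun h0 => by have := ht (plC V (σ p)); simp [h0] at this
    have h2 := ord_add_eq_left ht0 (show AtLeast (plC V (σ p)) ((plC V (σ p)).ord _ + 1) _ from
      by rw [ht]; exact h)
    rw [ht] at h2
    rw [← h2.2]
    congr 1
    ring
  have hK : ∀ p, ∃ K, RepAt V (σ p) (σ p) 0 φ K ∧
      analyticOrderAt (fun z => K z - (num p : ℂ)) (σ p : ℂ) = ramC V (σ p) := by
    intro p
    have hne : φ - algebraMap ℂ (V.fld ℂ) (num p) ≠ 0 := fun h0 => by
      have := hφord p; rw [h0] at this; simp at this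
    obtain ⟨K', hK'⟩ := exists_repAt (σ p) 0 (φ - algebraMap ℂ (V.fld ℂ) (num p))
      (Or.inr (by rw [hφord]; simp))
    have h1 := hK'.add (repAt_const (V := V) (σ p) (σ p : ℂ) 0 (num p))
    rw [sub_add_cancel] at h1
    refine ⟨_, h1, ?_⟩
    obtain ⟨o, ho, ho'⟩ := hK'.order hne
    rw [hφord] at ho'
    rw [show (fun z : ℂ => (K' + fun z : ℂ => (num p : ℂ) * (z - (σ p : ℂ)) ^ 0) z - (num p : ℂ)) = K' from
      funext fun z => by simp, ho]
    have : o = ramC V (σ p) := by
      have h2 : (o : ℤ) = ramC V (σ p) := by simpa using ho'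
      exact_mod_cast h2
    rw [this]
  choose K hK hKo using hK
  -- conditions near the points
  have hnear : ∀ p, ∀ᶠ z in 𝓝 (σ p : ℂ), 0 < z.im ∧
      (∀ w : ℍ, (w : ℂ) = z → RepAt V w (σ p) 0 φ (K p) ∧
        (∀ q, RepAt V w (σ p) (nn p) (b q : V.fld ℂ) (H p (b q))) ∧
        (p ≠ none → jfun w ≠ 0 ∧ jfun w ≠ 1728)) ∧
      (z ≠ σ p → K p z ≠ (num p : ℂ)) ∧ ‖K p z - (num p : ℂ)‖ < 1 / 2 := by
    intro p
    have han : AnalyticAt ℂ (fun z => K p z - (num p : ℂ)) (σ p) := (hK p).1.sub analyticAt_const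
    have h0 : K p (σ p) - (num p : ℂ) = 0 := by
      refine apply_eq_zero_of_analyticOrderAt_ne_zero (f := fun z => K p z - (num p : ℂ)) ?_
      rw [hKo]
      exact_mod_cast (ramC_pos (σ p)).ne'
    refine Eventually.and (isOpen_upperHalfPlaneSet.mem_nhds (σ p).im_pos) (Eventually.and ?_
      (Eventually.and ?_ ?_))
    · have hb' := eventually_all.2 fun q => (hH p (b q)).eventually
      have hj : ∀ᶠ z in 𝓝 (σ p : ℂ), p ≠ none →
          jfun (ofComplex z) ≠ 0 ∧ jfun (ofComplex z) ≠ 1728 := by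
        cases p with
        | none => simp
        | some v =>
          have hc : ContinuousAt (fun z => jfun (ofComplex z)) (σ (some v) : ℂ) :=
            ((DifferentiableOn.analyticAt (UpperHalfPlane.mdifferentiable_iff.1 mdiff_jfun)
              (isOpen_upperHalfPlaneSet.mem_nhds (σ (some v)).im_pos))).continuousAt
          filter_upwards [hc.eventually_ne (y := 0) (by simpa [hσ] using hpt0 v),
            hc.eventually_ne (y := 1728) (by simpa [hσ] using hpt1 v)] with z h1 h2 _
          exact ⟨h1, h2⟩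
      filter_upwards [(hK p).eventually, hb', hj] with z h1 h2 h3
      rintro w rfl
      exact ⟨h1 w rfl, fun q => h2 q w rfl, fun hp => by simpa using h3 hp⟩
    · rcases han.eventually_eq_zero_or_eventually_ne_zero with h | h
      · exact absurd (analyticOrderAt_eq_top.2 h) (by rw [hKo]; simp)
      · filter_upwards [eventually_nhdsWithin_iff.1 h] with z hz hne
        exact sub_ne_zero.1 (hz hne)
    · have hc : ContinuousAt (fun z => ‖K p z - (num p : ℂ)‖) (σ p : ℂ) := han.continuousAt.norm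
      exact hc.eventually_lt continuousAt_const (by rw [h0]; norm_num)
  -- the map
  let E := ((S × Fin m ⊕ Unit → ℂ) × (S → ℂ)) × ℂ
  let aP : ∀ q, E →L[ℂ] ℂ := fun q => (ContinuousLinearMap.proj q).comp
    ((ContinuousLinearMap.fst ℂ _ _).comp (ContinuousLinearMap.fst ℂ _ _))
  let uP : S → E →L[ℂ] ℂ := fun v => (ContinuousLinearMap.proj v).comp
    ((ContinuousLinearMap.snd ℂ _ _).comp (ContinuousLinearMap.fst ℂ _ _))
  let zP : E →L[ℂ] ℂ := ContinuousLinearMap.snd ℂ _ _
  set X : Option S → ℂ → ℂ := fun p z => (z - (σ p : ℂ)) ^ nn p with hX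
  let W : S × Fin l → E → ℂ := fun i x =>
    iteratedDeriv i.2 (X (some i.1)) ((σ (some i.1) : ℂ) + uP i.1 x) +
      ∑ q, aP q x * iteratedDeriv i.2 (H (some i.1) (b q)) ((σ (some i.1) : ℂ) + uP i.1 x)
  let Z : E → ℂ := fun x => X none (zP x) + ∑ q, aP q x * H none (b q) (zP x)
  let Ψ : E → (S × Fin l → ℂ) × ℂ × ℂ := fun x => (fun i => W i x, Z x, zP x)
  set x₀ : E := ((0, 0), (τ : ℂ)) with hx₀
  have haP : ∀ q, aP q x₀ = 0 := fun q => rfl
  have huP : ∀ v, uP v x₀ = 0 := fun v => rfl
  have hzP : zP x₀ = (τ : ℂ) := rfl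
  have hXan : ∀ p (z : ℂ) (k : ℕ), AnalyticAt ℂ (iteratedDeriv k (X p)) z := fun p z k => by
    rw [iteratedDeriv_eq_iterate]
    exact AnalyticAt.iterated_deriv (by simp only [hX]; fun_prop) k
  have hHan : ∀ p f (k : ℕ), AnalyticAt ℂ (iteratedDeriv k (H p f)) (σ p : ℂ) := fun p f k => by
    rw [iteratedDeriv_eq_iterate]
    exact AnalyticAt.iterated_deriv (hH p f).1 k
  have hW : ∀ i : S × Fin l, HasStrictFDerivAt (W i)
      (deriv (iteratedDeriv i.2 (X (some i.1))) (σ (some i.1)) • uP i.1 +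
        ∑ q, iteratedDeriv i.2 (H (some i.1) (b q)) (σ (some i.1)) • aP q) x₀ := by
    intro i
    have hu : HasStrictFDerivAt (fun x : E => (σ (some i.1) : ℂ) + uP i.1 x) (uP i.1) x₀ :=
      (uP i.1).hasStrictFDerivAt.const_add _
    have hux : (σ (some i.1) : ℂ) + uP i.1 x₀ = σ (some i.1) := by rw [huP, add_zero]
    refine (hasStrictFDerivAt_comp_proj (hXan _ _ _) hu hux).add
      (HasStrictFDerivAt.fun_sum fun q _ => ?_)
    have := (aP q).hasStrictFDerivAt.mul
      (hasStrictFDerivAt_comp_proj (hHan (some i.1) (b q) i.2) hu hux) (x := x₀)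
    refine this.congr_fderiv ?_
    refine ContinuousLinearMap.ext fun y => ?_
    rw [haP, hux]
    simp
  have hZ : HasStrictFDerivAt Z (deriv (X none) τ • zP + ∑ q, H none (b q) τ • aP q) x₀ := by
    have hz : HasStrictFDerivAt (fun x : E => zP x) zP x₀ := zP.hasStrictFDerivAt
    refine (hasStrictFDerivAt_comp_proj (g := X none) (c := (τ : ℂ)) (by simp only [hX]; fun_prop)
      hz rfl).add (HasStrictFDerivAt.fun_sum fun q _ => ?_)
    have := (aP q).hasStrictFDerivAt.mul
      (hasStrictFDerivAt_comp_proj (g := H none (b q)) (c := (τ : ℂ)) (hH none (b q)).1 hz rfl)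
      (x := x₀)
    refine this.congr_fderiv ?_
    refine ContinuousLinearMap.ext fun y => ?_
    rw [haP, hzP]
    simp
  have hΨ := (hasStrictFDerivAt_pi.2 hW).prodMk (hZ.prodMk zP.hasStrictFDerivAt)
  -- low derivatives of `X`
  have hXord : ∀ p, analyticOrderAt (X p) (σ p : ℂ) = nn p := fun p => by
    simp only [hX]
    rw [order_sub_pow, if_pos rfl]
  have hX0 : ∀ (v : S) (k : ℕ), k < l → iteratedDeriv k (X (some v)) (σ (some v)) = 0 :=
    fun v k hk => ((analyticOrderAt_eq_nat_iff_iteratedDeriv_eq_zero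
      (by simp only [hX]; fun_prop)).1 (hXord (some v))).1 k hk
  have hXl : ∀ (v : S), iteratedDeriv l (X (some v)) (σ (some v)) ≠ 0 :=
    fun v => ((analyticOrderAt_eq_nat_iff_iteratedDeriv_eq_zero
      (by simp only [hX]; fun_prop)).1 (hXord (some v))).2
  have hΦb : ∀ (v : S) (k : Fin m) q, iteratedDeriv k (H (some v) (b q)) (σ (some v)) =
      (Pi.single q 1 : _ → ℂ) (Sum.inl (v, k)) := fun v k q => congrFun (hb q) (Sum.inl (v, k))
  have hΦ0 : ∀ q, H none (b q) τ = (Pi.single q 1 : _ → ℂ) (Sum.inr ()) :=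
    fun q => congrFun (hb q) (Sum.inr ())
  have hmap := hΨ.map_nhds_eq_of_surj (by
    rw [LinearMap.range_eq_top]
    rintro ⟨w, δ, ζ⟩
    let a : S × Fin m ⊕ Unit → ℂ := Sum.elim (fun q => w (q.1, q.2.castSucc))
      (fun _ => δ - deriv (X none) τ * ζ)
    let u : S → ℂ := fun v => (w (v, Fin.last m) -
      ∑ q, iteratedDeriv m (H (some v) (b q)) (σ (some v)) * a q) /
        iteratedDeriv l (X (some v)) (σ (some v))
    refine ⟨((a, u), ζ), Prod.ext (funext fun i => ?_) (Prod.ext ?_ rfl)⟩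
    · obtain ⟨v, k⟩ := i
      simp only [ContinuousLinearMap.coe_coe, ContinuousLinearMap.prod_apply,
        ContinuousLinearMap.pi_apply, ContinuousLinearMap.add_apply,
        ContinuousLinearMap.sum_apply, ContinuousLinearMap.smul_apply, smul_eq_mul,
        ← iteratedDeriv_succ]
      show iteratedDeriv ((k : ℕ) + 1) (X (some v)) (σ (some v)) * u v +
        ∑ q, iteratedDeriv k (H (some v) (b q)) (σ (some v)) * a q = w (v, k)
      induction k using Fin.lastCases with
      | last =>
        simp only [Fin.val_last, u, ← hl]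
        rw [mul_div_cancel₀ _ (hXl v)]
        ring
      | cast k =>
        rw [hX0 v _ (by simp only [Fin.val_castSucc]; omega), zero_mul, zero_add]
        simp only [Fin.val_castSucc, hΦb, Pi.single_apply, ite_mul, one_mul, zero_mul,
          Finset.sum_ite_eq, Finset.mem_univ, if_true]
        rfl
    · simp only [ContinuousLinearMap.coe_coe, ContinuousLinearMap.prod_apply,
        ContinuousLinearMap.add_apply, ContinuousLinearMap.sum_apply,
        ContinuousLinearMap.smul_apply, smul_eq_mul, hΦ0, Pi.single_apply, ite_mul, one_mul,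
        zero_mul]
      show deriv (X none) τ * ζ + ∑ q, (if Sum.inr () = q then a q else 0) = δ
      simp [a])
  -- the value at `x₀`
  have hΨ₀ : Ψ x₀ = (0, 0, (τ : ℂ)) := by
    refine Prod.ext (funext fun i => ?_) (Prod.ext ?_ rfl)
    · simp only [Ψ, W, haP, huP, add_zero, zero_mul, Finset.sum_const_zero]
      exact hX0 i.1 i.2 i.2.2
    · simp only [Ψ, Z, haP, hzP, zero_mul, Finset.sum_const_zero, add_zero]
      simp [hX, hnn, hσ, zero_pow (ramC_pos (V := V) τ).ne']
  -- good neighbourhood of `x₀`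
  have hN : ∀ᶠ x in 𝓝 x₀, ∀ p : Option S,
      let z := p.elim (zP x) (fun v => (σ (some v) : ℂ) + uP v x)
      0 < z.im ∧
      (∀ w : ℍ, (w : ℂ) = z → RepAt V w (σ p) 0 φ (K p) ∧
        (∀ q, RepAt V w (σ p) (nn p) (b q : V.fld ℂ) (H p (b q))) ∧
        (p ≠ none → jfun w ≠ 0 ∧ jfun w ≠ 1728)) ∧
      (z ≠ σ p → K p z ≠ (num p : ℂ)) ∧ ‖K p z - (num p : ℂ)‖ < 1 / 2 := by
    refine eventually_all.2 fun p => ?_
    cases p with
    | none => exact (zP.continuous.tendsto x₀).eventually (hnear none)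
    | some v =>
      have hc : Continuous fun x : E => (σ (some v) : ℂ) + uP v x := by fun_prop
      have ht' := hc.tendsto x₀
      rw [show (σ (some v) : ℂ) + uP v x₀ = σ (some v) by rw [huP, add_zero]] at ht'
      exact ht'.eventually (hnear (some v))
  have himg := image_mem_map (m := Ψ) hN
  rw [show map Ψ (𝓝 x₀) = 𝓝 (Ψ x₀) from hmap, hΨ₀] at himg
  have hcz : Continuous fun z : ℍ => ((0 : S × Fin l → ℂ), (0 : ℂ), (z : ℂ)) := by
    fun_prop
  filter_upwards [(hcz.tendsto τ).eventually himg] with z hz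
  obtain ⟨⟨⟨a, u⟩, z'⟩, hx, hxz⟩ := hz
  have hzz : z' = (z : ℂ) := congrArg (fun y : _ × ℂ × ℂ => y.2.2) hxz
  subst hzz
  have hW0 : ∀ i, W i ((a, u), (z : ℂ)) = 0 := fun i =>
    congrFun (congrArg (fun y : _ × ℂ × ℂ => y.1) hxz) i
  have hZ0 : Z ((a, u), (z : ℂ)) = 0 := congrArg (fun y : _ × ℂ × ℂ => y.2.1) hxz
  rcases eq_or_ne z τ with rfl | hzτ
  · exact ⟨1, one_ne_zero, fun v => by simp [hv₀]⟩
  -- the function
  set f : V.fld ℂ := algebraMap ℂ (V.fld ℂ) 1 + ∑ q, algebraMap ℂ (V.fld ℂ) (a q) * (b q : V.fld ℂ)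
    with hf
  have h1B : (1 : V.fld ℂ) ∈ R := by
    rw [hR, mem_riemannRochSpace]
    intro v
    refine Or.inr ?_
    rw [v.ord_one, neg_nonpos]
    by_cases hv : v ∈ S
    · rw [hBS v hv]; omega
    · rcases eq_or_ne v v₀ with rfl | hne
      · rw [hB₀]; norm_num
      · rw [hBo v hv hne]
  set fR : R := ⟨1, h1B⟩ + ∑ q, a q • b q with hfR
  have hfRc : (fR : V.fld ℂ) = f := by
    simp [hfR, hf, Algebra.smul_def]
  have hΦ1 : Φ ⟨1, h1B⟩ = 0 := by
    have h := fun p => (hH p ⟨1, h1B⟩).congr (by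
      simpa using repAt_const (V := V) (σ p) (σ p : ℂ) (nn p) 1)
    funext q
    rcases q with ⟨v, k⟩ | _
    · show iteratedDeriv k (H (some v) ⟨1, h1B⟩) (σ (some v)) = 0
      rw [iteratedDeriv_congr_at (h (some v))]
      exact hX0 v k (by omega)
    · show H none ⟨1, h1B⟩ (σ none) = 0
      rw [(h none).eq_of_nhds]
      simp [hnn, (ramC_pos (V := V) τ).ne']
  have hf0 : f ≠ 0 := by
    intro h0
    have h := congrArg Φ (show fR = 0 from Subtype.ext (hfRc.trans h0))
    rw [map_zero, hfR, map_add, hΦ1, zero_add, map_sum] at h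
    simp only [map_smul, hb] at h
    have ha : ∀ q, a q = 0 := fun q => by
      have := congrFun h q
      simpa [Finset.sum_apply, Pi.single_apply] using this
    simp [hf, ha] at h0
  -- the new points
  let zz : Option S → ℂ := fun p => p.elim (z : ℂ) (fun v => (σ (some v) : ℂ) + u v)
  have hzz : ∀ p, 0 < (zz p).im ∧
      (∀ w : ℍ, (w : ℂ) = zz p → RepAt V w (σ p) 0 φ (K p) ∧
        (∀ q, RepAt V w (σ p) (nn p) (b q : V.fld ℂ) (H p (b q))) ∧
        (p ≠ none → jfun w ≠ 0 ∧ jfun w ≠ 1728)) ∧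
      (zz p ≠ σ p → K p (zz p) ≠ (num p : ℂ)) ∧ ‖K p (zz p) - (num p : ℂ)‖ < 1 / 2 :=
    fun p => by cases p <;> exact hx _
  let w : Option S → ℍ := fun p => ⟨zz p, (hzz p).1⟩
  have hw : ∀ p, (w p : ℂ) = zz p := fun p => rfl
  have hwn : w none = z := UpperHalfPlane.ext rfl
  -- the value of `φ` at the new places
  have hval : ∀ p, HasValue (plC V (w p)) φ (K p (zz p)) := by
    intro p
    have h1 := ((hzz p).2.1 (w p) rfl).1.add
      (repAt_const (V := V) (w p) (σ p : ℂ) 0 (-K p (zz p)))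
    rcases eq_or_ne (φ - algebraMap ℂ (V.fld ℂ) (K p (zz p))) 0 with h0 | h0
    · exact Or.inl h0
    refine Or.inr ?_
    rw [map_neg, ← sub_eq_add_neg] at h1
    obtain ⟨o, ho, ho'⟩ := h1.order h0
    have hne : analyticOrderAt _ _ ≠ 0 := (h1.1.analyticOrderAt_ne_zero).2
      (by simp [hw])
    have ho1 : 1 ≤ o := Nat.pos_of_ne_zero fun h => hne (by rw [ho, h]; rfl)
    simp only [ite_self, Nat.cast_zero, add_zero] at ho'
    have h3 := pos_of_mul_pos_right
      (lt_of_lt_of_le (by exact_mod_cast ho1 : (0 : ℤ) < o) ho'.le) (Int.natCast_nonneg _)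
    omega
  have hnum : ∀ p q, p ≠ q → 1 ≤ ‖(num p : ℂ) - (num q : ℂ)‖ := by
    intro p q hpq
    have hne : ((num p : ℤ) - num q) ≠ 0 := by
      intro h
      have h' : num p = num q := by omega
      exact hpq ((Fintype.equivFin _).injective (Fin.ext h'))
    rw [show (num p : ℂ) - (num q : ℂ) = (((num p : ℤ) - num q : ℤ) : ℂ) by push_cast; ring,
      Complex.norm_intCast]
    exact_mod_cast Int.one_le_abs hne
  have hQinj : Function.Injective fun p => plC V (w p) := by
    intro p q h
    by_contra hpq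
    have h1 := hval p
    rw [show plC V (w p) = plC V (w q) from h] at h1
    have h2 := h1.unique (hval q)
    have := hnum p q hpq
    have hp := (hzz p).2.2.2
    have hq := (hzz q).2.2.2
    rw [h2] at hp
    have := norm_sub_le_norm_sub_add_norm_sub (num p : ℂ) (K q (zz q)) (num q : ℂ)
    rw [norm_sub_rev (num p : ℂ) (K q (zz q))] at this
    linarith
  have hold : ∀ p q, plC V (w p) = plC V (σ q) → p = q ∧ zz p = σ p := by
    intro p q h
    have h1 := hval p
    rw [h] at h1
    have hφq : HasValue (plC V (σ q)) φ (num q : ℂ) := Or.inr (hφord q).ge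
    have h2 := h1.unique hφq
    have hp := (hzz p).2.2.2
    rw [h2] at hp
    have hpq : p = q := by
      by_contra hpq
      have := hnum q p (Ne.symm hpq)
      linarith
    refine ⟨hpq, ?_⟩
    by_contra hne
    exact (hzz p).2.2.1 hne (hpq ▸ h2)
  -- orders of `f` at the new places
  have hrepf : ∀ p, RepAt V (w p) (σ p) (nn p) f
      (fun y => X p y + ∑ q, a q * H p (b q) y) := by
    intro p
    have h1 := repAt_const (V := V) (w p) (σ p : ℂ) (nn p) 1
    simp only [one_mul] at h1
    exact h1.add (repAt_sum _ fun q _ => (((hzz p).2.1 (w p) rfl).2.1 q).smul (a q))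
  have hQ : ∀ v : S, (l : ℤ) ≤ B (plC V (w (some v))) + (plC V (w (some v))).ord f := by
    intro v
    have hr : ramC V (w (some v)) = 1 := by
      have h := ((hzz (some v)).2.1 (w (some v)) rfl).2.2 (Option.some_ne_none v)
      exact ramC_eq_one h.1 h.2
    obtain ⟨o, ho, ho'⟩ := (hrepf (some v)).order hf0
    have hle : (l : ℕ∞) ≤ o := by
      rw [← ho, natCast_le_analyticOrderAt_iff_iteratedDeriv_eq_zero (hrepf (some v)).1]
      intro k hk
      have han : ∀ q, ContDiffAt ℂ k (fun y => a q * H (some v) (b q) y) (w (some v) : ℂ) :=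
        fun q => (analyticAt_const.mul (((hzz (some v)).2.1 _ rfl).2.1 q).1).contDiffAt
      rw [iteratedDeriv_fun_add (AnalyticAt.contDiffAt (by simp only [hX]; fun_prop))
        (ContDiffAt.sum fun q _ => han q), iteratedDeriv_fun_sum fun q _ => han q]
      simp only [iteratedDeriv_const_mul_field]
      exact hW0 (v, ⟨k, hk⟩)
    rw [hr, Nat.cast_one, one_mul] at ho'
    rw [Nat.cast_le] at hle
    by_cases hzv : zz (some v) = σ (some v)
    · have hwv : w (some v) = σ (some v) := UpperHalfPlane.ext hzv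
      rw [hwv] at ho' ⊢
      rw [hσv] at ho' ⊢
      rw [hBS _ v.2]
      rw [if_pos rfl] at ho'
      simp only [hnn, Option.elim] at ho'
      omega
    · rw [hw, if_neg hzv] at ho'
      have h0 : B (plC V (w (some v))) = 0 := hBo _
        (fun hm => hzv (hold (some v) (some ⟨_, hm⟩) (hσv ⟨_, hm⟩).symm).2)
        (fun hm => by simpa using (hold (some v) none hm).1)
      rw [h0]
      omega
  have hR' : 1 ≤ B (plC V z) + (plC V z).ord f := by
    have h0 : B (plC V z) = 0 := by
      rw [← hwn]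
      exact hBo _ (fun hm => by simpa using (hold none (some ⟨_, hm⟩) (hσv ⟨_, hm⟩).symm).1)
        (fun hm => hzτ (hwn.symm.trans (UpperHalfPlane.ext (hold none none hm).2)))
    have hne : analyticOrderAt (fun y => X none y + ∑ q, a q * H none (b q) y) (w none : ℂ) ≠ 0 :=
      ((hrepf none).1.analyticOrderAt_ne_zero).2 hZ0
    obtain ⟨o, ho, ho'⟩ := (hrepf none).order hf0
    have ho1 : 1 ≤ o := Nat.pos_of_ne_zero fun h => hne (by rw [ho, h]; rfl)
    rw [if_neg (show ¬((w none : ℂ) = (σ none : ℂ)) from fun h => hzτ (UpperHalfPlane.ext h)), hwn,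
      Nat.cast_zero, add_zero] at ho'
    have h3 := pos_of_mul_pos_right
      (lt_of_lt_of_le (by exact_mod_cast ho1 : (0 : ℤ) < o) ho'.le) (Int.natCast_nonneg _)
    omega
  -- compare degrees
  set D₁ : Divisor ℂ (V.fld ℂ) :=
    ∑ p, Finsupp.single (plC V (w p)) (p.elim (1 : ℤ) (fun _ => (l : ℤ))) with hD₁
  have hD₁ap : ∀ p, D₁ (plC V (w p)) = p.elim (1 : ℤ) (fun _ => (l : ℤ)) := by
    intro p
    rw [hD₁, Finset.sum_apply']
    simp [Finsupp.single_apply, hQinj.eq_iff]
  set E' : Divisor ℂ (V.fld ℂ) := B + divOf hF f with hE'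
  have hE'0 : ∀ v, 0 ≤ E' v := fun v => by
    have := mem_riemannRochSpace.1 fR.2 v
    rw [hfRc, atLeast_iff hf0] at this
    rw [hE', Finsupp.add_apply, divOf_apply]
    omega
  have hle : D₁ ≤ E' := by
    refine Finsupp.le_def.2 fun v => ?_
    by_cases hv : ∃ p, plC V (w p) = v
    · obtain ⟨p, rfl⟩ := hv
      rw [hD₁ap, hE', Finsupp.add_apply, divOf_apply]
      cases p with
      | none => rw [hwn]; exact hR'
      | some v => exact hQ v
    · push Not at hv
      rw [hD₁, Finset.sum_apply']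
      simp [Finsupp.single_apply, hv, hE'0 v]
  have heq : D₁ = E' := by
    have hdeg : Divisor.degree (E' - D₁) = 0 := by
      rw [map_sub, hE', map_add, hdegB, degree_divOf, hD₁, map_sum]
      simp [hF.deg_eq_one, Fintype.sum_option, mul_comm]
      ring
    refine Finsupp.ext fun v => ?_
    have hpos : ∀ x, 0 ≤ (E' - D₁) x := fun x => by
      have := Finsupp.le_def.1 hle x
      rw [Finsupp.sub_apply]; omega
    have h := degree_eq_finset_sum hF (E' - D₁) (Finset.subset_insert v _)
    rw [hdeg] at h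
    have h2 := (Finset.sum_eq_zero_iff_of_nonneg fun x _ => hpos x).1 h.symm v
      (Finset.mem_insert_self _ _)
    rw [Finsupp.sub_apply] at h2
    omega
  refine ⟨f, hf0, fun v => ?_⟩
  have h := Finsupp.ext_iff.1 heq v
  rw [hE', Finsupp.add_apply, divOf_apply, hB, Finsupp.add_apply, Finsupp.smul_apply,
    smul_eq_mul] at h
  rw [hD₁, Fintype.sum_option, Finsupp.add_apply, Finset.sum_apply'] at h
  simp only [Option.elim, hwn] at h
  rw [Finsupp.sub_apply]
  have hsum : (l : ℤ) ∣ ∑ i : S, (Finsupp.single (plC V (w (some i))) (l : ℤ)) v :=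
    Finset.dvd_sum fun i _ => by
      rw [Finsupp.single_apply]; split_ifs <;> simp
  have heq2 : Finsupp.single (plC V z) (1 : ℤ) v - Finsupp.single v₀ 1 v - v.ord f =
      (l : ℤ) * (∑ u ∈ S, Finsupp.single u (1 : ℤ)) v -
        ∑ i : S, (Finsupp.single (plC V (w (some i))) (l : ℤ)) v := by
    linarith
  rw [heq2]
  exact dvd_sub (dvd_mul_right _ _) hsum

end FA.JTorsion.Divisible
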