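import Fermat.Agent.Level.BaseChange
import Fermat.Agent.Curve.Value

/-!
# The place of a point of the upper half plane

`IsPtPlace V L τ v k`: the expansion at `τ` has order `k` times the order at `v`.  Over `ℂ` every
point has one; away from the elliptic points `k = 1`, and every place where `j` is finite and
different from `0`, `1728` is the place of a point.
-/

set_option autoImplicit false
set_option linter.style.haveILetI false
set_option linter.unusedSectionVars false
set_option synthInstance.maxHeartbeats 200000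
set_option maxHeartbeats 1600000

noncomputable section

namespace FA.JTorsion.Divisible

open UpperHalfPlane hiding I
open Complex Filter Set ModularCurve AlgebraicCurve FA.Level FA.ModField
open FA.JTorsion (order_tay_eq)
open scoped MatrixGroups Topology Manifold

variable (V : Lvl) (L : Type) [Field L] [IsAlgClosed L] [Algebra ℚ L] [Algebra L ℂ]

/-- `v` is the place of `τ`, with ramification `k`. -/
def IsPtPlace (τ : ℍ) (v : Place L (V.fld L)) (k : ℕ) : Prop :=
  0 < k ∧ ∀ f : V.fld L, (emb (pointPar V τ) 1 f).order = (k : ℤ) * v.ord f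

/-- The holomorphic function of an element of `alg`, on `ℂ`. -/
def lift (a : V.alg L) : ℂ → ℂ := V.funHom L a ∘ ofComplex

variable {V L}

theorem analyticAt_lift (a : V.alg L) {w : ℂ} (hw : 0 < w.im) : AnalyticAt ℂ (lift V L a) w := by
  refine DifferentiableOn.analyticAt ?_ (isOpen_upperHalfPlaneSet.mem_nhds hw)
  exact UpperHalfPlane.mdifferentiable_iff.1 (V.funHom_mem L a).1

theorem lift_add (a b : V.alg L) : lift V L (a + b) = lift V L a + lift V L b := by
  funext z; simp [lift]

theorem lift_mul (a b : V.alg L) : lift V L (a * b) = lift V L a * lift V L b := by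
  funext z; simp [lift]

theorem lift_zero : lift V L 0 = 0 := by funext z; simp [lift]

theorem lift_algebraMap (c : L) :
    lift V L (algebraMap L (V.alg L) c) = fun _ => algebraMap L ℂ c := by
  funext z; simp [lift, V.funHom_algebraMap]

theorem eq_zero_of_eventually_lift {a : V.alg L} (τ : ℍ)
    (h : ∀ᶠ z in 𝓝 (τ : ℂ), lift V L a z = 0) : a = 0 := by
  refine (V.funHom_injective L) ?_
  rw [map_zero]
  refine UpperHalfPlane.eq_zero_of_frequently (V.funHom_mem L a).1 (τ := τ) ?_
  refine Eventually.frequently ?_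
  have h2 : ∀ᶠ z : ℍ in 𝓝 τ, V.funHom L a z = 0 := by
    filter_upwards [UpperHalfPlane.continuous_coe.continuousAt.eventually h] with z hz
    simpa [lift] using hz
  exact h2.filter_mono nhdsWithin_le_nhds

theorem analyticOrderAt_lift_ne_top {a : V.alg L} (ha : a ≠ 0) (τ : ℍ) :
    analyticOrderAt (lift V L a) (τ : ℂ) ≠ ⊤ := fun h =>
  ha (eq_zero_of_eventually_lift τ (analyticOrderAt_eq_top.1 h))

theorem emb_mul_toFld (τ : ℍ) {f : V.fld L} {a b : V.alg L} (hf : f ≠ 0) (hb : b ≠ 0)
    (h : f * V.toFld L b = V.toFld L a) :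
    (emb (pointPar V τ) 1 f).order + analyticOrderNatAt (lift V L b) (τ : ℂ) =
      analyticOrderNatAt (lift V L a) (τ : ℂ) := by
  have h1 := congrArg (emb (pointPar V τ) 1) h
  rw [map_mul, emb_toFld, emb_toFld] at h1
  have ha : a ≠ 0 := fun h0 => by
    subst h0
    have h2 := h1
    rw [show expAt (pointPar V τ) 1 (0 : V.alg L) = 0 from map_zero (expHom (pointPar V τ) 1)] at h2
    exact mul_ne_zero ((_root_.map_ne_zero _).2 hf) (expAt_ne_zero _ _ hb) h2
  rw [lift, lift, ← order_expAt_point b hb τ, ← order_expAt_point a ha τ, ← h1,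
    HahnSeries.order_mul ((_root_.map_ne_zero _).2 hf) (expAt_ne_zero _ _ hb)]

theorem order_expAt_smul (γ : SL(2, ℤ)) (τ : ℍ) {a : V.alg L} (ha : a ≠ 0) :
    (expAt (pointPar V τ) γ a).order = (expAt (pointPar V (γ • τ)) 1 a).order := by
  set F : ℍ → ℂ := fun z => V.funHom L a (γ • z) with hF
  have hm : MDiff F := mdiff_comp_smul (V.funHom_mem L a).1 γ
  have hF0 : F ≠ 0 := fun h => ha ((V.funHom_injective L) (by
    rw [map_zero]; funext z
    have := congrFun h (γ⁻¹ • z)
    simpa [hF] using this))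
  rw [expAt_eq (a := a) (P := pointPar V τ) (γ := γ) (hasExp_cay hm τ), order_expAt_point a ha,
    order_tay_eq hm hF0 τ]
  set g : GL (Fin 2) ℝ := (γ : GL (Fin 2) ℝ) with hg
  have hdet : (0 : ℝ) < g.val.det := lt_of_lt_of_eq one_pos
    (Matrix.SpecialLinearGroup.det_coe (Matrix.SpecialLinearGroup.map (Int.castRingHom ℝ) γ)).symm
  have hsm : ∀ z : ℍ, γ • z = g • z := fun z => rfl
  have hcomp : F ∘ ofComplex = (V.funHom L a ∘ ofComplex) ∘
      (fun z : ℂ => ((g • ofComplex z : ℍ) : ℂ)) := by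
    funext z; simp [hF, hsm]
  simp only [analyticOrderNatAt]
  rw [hcomp, analyticOrderAt_comp_of_deriv_ne_zero (UpperHalfPlane.analyticAt_smul hdet τ)
    (UpperHalfPlane.deriv_smul_ne_zero hdet τ)]
  simp [hsm]

theorem order_emb_smul (γ : SL(2, ℤ)) (τ : ℍ) (f : V.fld L) :
    (emb (pointPar V τ) γ f).order = (emb (pointPar V (γ • τ)) 1 f).order := by
  rcases eq_or_ne f 0 with rfl | hf
  · simp
  obtain ⟨a, b, hb, hab⟩ := V.exists_fraction L f
  have ha : a ≠ 0 := fun h0 => by
    subst h0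
    have := congrArg (emb (pointPar V τ) γ) hab
    rw [map_mul, emb_toFld, emb_toFld,
      show expAt (pointPar V τ) γ (0 : V.alg L) = 0 from map_zero (expHom (pointPar V τ) γ)] at this
    exact mul_ne_zero ((_root_.map_ne_zero _).2 hf) (expAt_ne_zero _ _ hb) this
  have key : ∀ (P : LPar V) (δ : SL(2, ℤ)),
      (emb P δ f).order = (expAt P δ a).order - (expAt P δ b).order := fun P δ => by
    have h1 := congrArg (emb P δ) hab
    rw [map_mul, emb_toFld, emb_toFld] at h1
    rw [← h1, HahnSeries.order_mul ((_root_.map_ne_zero _).2 hf) (expAt_ne_zero _ _ hb)]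
    ring
  rw [key, key, order_expAt_smul γ τ ha, order_expAt_smul γ τ hb]

theorem emb_jF_sub (τ : ℍ) {a : L} (ha : jfun τ = algebraMap L ℂ a) :
    emb (pointPar V τ) 1 (V.jF L - algebraMap L (V.fld L) a) = jLocal τ := by
  have hexp : HasExp (pointPar V τ).T (fun x => jfun ((pointPar V τ).g₀ x))
      (jLocal τ + HahnSeries.C (algebraMap L ℂ a)) :=
    ((hasExp_jLocal τ).add (hasExp_C _)).congr (funext fun w => by
      show jfun (cayH τ w) - jfun τ + algebraMap L ℂ a = jfun (cayH τ w)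
      rw [ha]; ring)
  rw [map_sub, AlgHom.commutes, FA.ModField.algebraMap_laurentC, emb_jF _ _ hexp,
    add_sub_cancel_right]

theorem order_jLocal_pos (τ : ℍ) : 0 < (jLocal τ).order := by
  have h : (HahnSeries.ofPowerSeries ℤ ℂ
      (tay ((fun z => jfun z - jfun τ) ∘ ofComplex ∘ cay τ))).order =
      analyticOrderNatAt ((fun z => jfun z - jfun τ) ∘ ofComplex) (τ : ℂ) :=
    order_tay_eq (mdiff_jfun.sub mdifferentiable_const) (jfun_ne_const _) τ
  rw [jLocal, h]
  have hz : ((fun z => jfun z - jfun τ) ∘ ofComplex) (τ : ℂ) = 0 := by simp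
  have han : AnalyticAt ℂ ((fun z => jfun z - jfun τ) ∘ ofComplex) (τ : ℂ) := by
    refine DifferentiableOn.analyticAt ?_ (isOpen_upperHalfPlaneSet.mem_nhds τ.im_pos)
    exact UpperHalfPlane.mdifferentiable_iff.1 (mdiff_jfun.sub mdifferentiable_const)
  have h1 : analyticOrderAt ((fun z => jfun z - jfun τ) ∘ ofComplex) (τ : ℂ) ≠ 0 :=
    han.analyticOrderAt_ne_zero.2 hz
  have h2 : analyticOrderAt ((fun z => jfun z - jfun τ) ∘ ofComplex) (τ : ℂ) ≠ ⊤ := fun ht => by
    refine jfun_ne_const (jfun τ) (UpperHalfPlane.eq_zero_of_frequently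
      (mdiff_jfun.sub mdifferentiable_const) (τ := τ) (Eventually.frequently ?_))
    have h' : ∀ᶠ z : ℍ in 𝓝 τ, jfun z - jfun τ = 0 := by
      filter_upwards [UpperHalfPlane.continuous_coe.continuousAt.eventually
        (analyticOrderAt_eq_top.1 ht)] with z hz'
      simpa using hz'
    exact h'.filter_mono nhdsWithin_le_nhds
  rw [← Nat.cast_analyticOrderNatAt h2] at h1
  exact_mod_cast Nat.pos_of_ne_zero (by exact_mod_cast h1)

/-- A point where the value of `j` is in `L` has a place. -/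
theorem exists_isPtPlace (τ : ℍ) {a : L} (ha : jfun τ = algebraMap L ℂ a) :
    ∃ v k, IsPtPlace V L τ v k := by
  rcases exists_place_of_embedding (emb (L := L) (pointPar V τ) 1) with h | ⟨v, k, hk, h⟩
  · have h1 := h (V.jF L - algebraMap L (V.fld L) a)
    rw [emb_jF_sub τ ha] at h1
    exact absurd h1 (order_jLocal_pos τ).ne'
  · exact ⟨v, k.toNat, by omega, fun f => by rw [h f, Int.toNat_of_nonneg hk.le]⟩

theorem IsPtPlace.jF {τ : ℍ} {v : Place L (V.fld L)} {k : ℕ} (h : IsPtPlace V L τ v k) {a : L}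
    (ha : jfun τ = algebraMap L ℂ a) :
    (jLocal τ).order = (k : ℤ) * v.ord (V.jF L - algebraMap L (V.fld L) a) := by
  rw [← emb_jF_sub τ ha, h.2]

theorem IsPtPlace.ord_jF_pos {τ : ℍ} {v : Place L (V.fld L)} {k : ℕ} (h : IsPtPlace V L τ v k)
    {a : L} (ha : jfun τ = algebraMap L ℂ a) : 0 < v.ord (V.jF L - algebraMap L (V.fld L) a) :=
  pos_of_mul_pos_right (h.jF ha ▸ order_jLocal_pos τ) (Int.natCast_nonneg k)

theorem IsPtPlace.k_eq_one {τ : ℍ} {v : Place L (V.fld L)} {k : ℕ} (h : IsPtPlace V L τ v k)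
    {a : L} (ha : jfun τ = algebraMap L ℂ a) (h0 : jfun τ ≠ 0) (h1 : jfun τ ≠ 1728) : k = 1 := by
  have h2 := h.jF ha
  rw [order_jLocal_general h0 h1] at h2
  have h3 := Int.eq_one_of_dvd_one (Int.natCast_nonneg k) ⟨_, h2⟩
  exact_mod_cast h3

theorem place_eq_of_scaled {K F : Type*} [Field K] [Field F] [Algebra K F] {v w : Place K F}
    {k k' : ℤ} (hk : 0 < k) (hk' : 0 < k') (h : ∀ f : F, k * v.ord f = k' * w.ord f) : v = w := by
  refine Place.ext (SetLike.ext fun f => ?_)
  rw [mem_place_iff, mem_place_iff]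
  constructor <;> intro hf
  · exact nonneg_of_mul_nonneg_right (h f ▸ mul_nonneg hk.le hf) hk'
  · exact nonneg_of_mul_nonneg_right ((h f).symm ▸ mul_nonneg hk'.le hf) hk

theorem IsPtPlace.unique {τ : ℍ} {v v' : Place L (V.fld L)} {k k' : ℕ}
    (h : IsPtPlace V L τ v k) (h' : IsPtPlace V L τ v' k') : v = v' :=
  place_eq_of_scaled (Int.natCast_pos.2 h.1) (Int.natCast_pos.2 h'.1) fun f => by
    rw [← h.2, h'.2]

/-- Every place where `j` has a finite value other than `0`, `1728` is the place of a point. -/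
theorem exists_point_of_place (v : Place L (V.fld L)) {a : L}
    (hv : 0 < v.ord (V.jF L - algebraMap L (V.fld L) a)) (h0 : a ≠ 0) (h1 : a ≠ 1728) :
    ∃ τ, jfun τ = algebraMap L ℂ a ∧ IsPtPlace V L τ v 1 := by
  obtain ⟨τ₀, hτ⟩ := exists_jfun_eq (algebraMap L ℂ a)
  have hj0 : jfun τ₀ ≠ 0 := by rw [hτ]; exact (_root_.map_ne_zero _).2 h0
  have hj1 : jfun τ₀ ≠ 1728 := by
    rw [hτ, ← map_ofNat (algebraMap L ℂ) 1728]
    exact fun h => h1 ((algebraMap L ℂ).injective h)
  set E := V.pointFam L a τ₀ hτ 1 (one_smul _ τ₀) 1 one_pos (order_jLocal_general hj0 hj1)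
    (rotUnit_one τ₀)
  obtain ⟨i, hi⟩ := E.pl_surjective v hv
  set τ := (Quotient.out i : SL(2, ℤ))⁻¹ • τ₀
  have hjτ : jfun τ = algebraMap L ℂ a := by rw [jfun_smul, hτ]
  obtain ⟨w, k, hw⟩ := exists_isPtPlace (V := V) τ hjτ
  obtain rfl : k = 1 := hw.k_eq_one hjτ (by rwa [jfun_smul]) (by rwa [jfun_smul])
  refine ⟨τ, hjτ, ?_⟩
  have hwv : v = w := place_eq_of_scaled (E.scale_pos i) one_pos fun f => by
    have h2 := order_emb_smul (V := V) (Quotient.out i : SL(2, ℤ))⁻¹ τ₀ f
    rw [hw.2 f, Nat.cast_one] at h2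
    rw [← hi, ← E.order_σ, ← h2]
    rfl
  rwa [hwv]

end FA.JTorsion.Divisible
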