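import Fermat.Agent.JTorsion.Divisible.PointPlace

/-!
# Functions of the field as analytic functions near a point, after clearing a pole at that point
-/

set_option autoImplicit false
set_option linter.style.haveILetI false
set_option linter.unusedSectionVars false
set_option synthInstance.maxHeartbeats 200000
set_option maxHeartbeats 1600000

noncomputable section

namespace FA.JTorsion.Divisible

open UpperHalfPlane hiding I
open Complex Filter Set ModularCurve AlgebraicCurve FA.Level FA.ModField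
open scoped MatrixGroups Topology Manifold

variable {V : Lvl}

/-- The place of a point over `ℂ`. -/
def plC (V : Lvl) (τ : ℍ) : Place ℂ (V.fld ℂ) :=
  (exists_isPtPlace (V := V) (L := ℂ) τ (a := jfun τ) rfl).choose

/-- The ramification index of a point over `ℂ`. -/
def ramC (V : Lvl) (τ : ℍ) : ℕ :=
  (exists_isPtPlace (V := V) (L := ℂ) τ (a := jfun τ) rfl).choose_spec.choose

theorem isPtPlace_plC (τ : ℍ) : IsPtPlace V ℂ τ (plC V τ) (ramC V τ) :=
  (exists_isPtPlace (V := V) (L := ℂ) τ (a := jfun τ) rfl).choose_spec.choose_spec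

theorem ramC_pos (τ : ℍ) : 0 < ramC V τ := (isPtPlace_plC τ).1

theorem ramC_eq_one {τ : ℍ} (h0 : jfun τ ≠ 0) (h1 : jfun τ ≠ 1728) : ramC V τ = 1 :=
  (isPtPlace_plC τ).k_eq_one (a := jfun τ) rfl h0 h1

/-- `H` is `f * (z - c) ^ n` near `w`. -/
def RepAt (V : Lvl) (w : ℍ) (c : ℂ) (n : ℕ) (f : V.fld ℂ) (H : ℂ → ℂ) : Prop :=
  AnalyticAt ℂ H w ∧ ∀ a b : V.alg ℂ, f * V.toFld ℂ b = V.toFld ℂ a →
    H * lift V ℂ b =ᶠ[𝓝 (w : ℂ)] lift V ℂ a * fun z => (z - c) ^ n

theorem eq_zero_of_mul_lift {w : ℍ} {F : ℂ → ℂ} (hF : AnalyticAt ℂ F w) {b : V.alg ℂ} (hb : b ≠ 0)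
    (h : F * lift V ℂ b =ᶠ[𝓝 (w : ℂ)] 0) : F =ᶠ[𝓝 (w : ℂ)] 0 := by
  refine analyticOrderAt_eq_top.1 ?_
  by_contra hne
  have h1 : analyticOrderAt (F * lift V ℂ b) (w : ℂ) = ⊤ := analyticOrderAt_eq_top.2 h
  rw [analyticOrderAt_mul hF (analyticAt_lift b w.im_pos), ENat.add_eq_top] at h1
  exact h1.elim hne (analyticOrderAt_lift_ne_top hb w)

theorem toFld_inj {a b : V.alg ℂ} (h : V.toFld ℂ a = V.toFld ℂ b) : a = b :=
  Subtype.ext (congrArg (fun x : V.fld ℂ => (x : LaurentSeries ℂ)) h)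

theorem cross_eq {f : V.fld ℂ} {a b a' b' : V.alg ℂ} (h : f * V.toFld ℂ b = V.toFld ℂ a)
    (h' : f * V.toFld ℂ b' = V.toFld ℂ a') : a' * b = a * b' := by
  apply toFld_inj
  rw [map_mul, map_mul, ← h, ← h']; ring

theorem repAt_of_fraction {w : ℍ} {c : ℂ} {n : ℕ} {f : V.fld ℂ} {H : ℂ → ℂ}
    (hH : AnalyticAt ℂ H w) {a b : V.alg ℂ} (hb : b ≠ 0)
    (h : f * V.toFld ℂ b = V.toFld ℂ a)
    (heq : H * lift V ℂ b =ᶠ[𝓝 (w : ℂ)] lift V ℂ a * fun z => (z - c) ^ n) :
    RepAt V w c n f H := by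
  refine ⟨hH, fun a' b' h' => ?_⟩
  have hG : AnalyticAt ℂ (fun z => H z * lift V ℂ b' z - lift V ℂ a' z * (z - c) ^ n) w := by
    have := analyticAt_lift (V := V) b' w.im_pos
    have := analyticAt_lift (V := V) a' w.im_pos
    fun_prop
  have hx : lift V ℂ a' * lift V ℂ b = lift V ℂ a * lift V ℂ b' := by
    rw [← lift_mul, ← lift_mul, cross_eq h h']
  have h0 := eq_zero_of_mul_lift hG hb (by
    filter_upwards [heq] with z hz
    have := congrFun hx z
    simp only [Pi.mul_apply, Pi.zero_apply] at hz this ⊢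
    linear_combination (lift V ℂ b' z) * hz - (z - c) ^ n * this)
  filter_upwards [h0] with z hz
  simpa [sub_eq_zero] using hz

theorem RepAt.congr {w : ℍ} {c : ℂ} {n : ℕ} {f : V.fld ℂ} {H H' : ℂ → ℂ}
    (h : RepAt V w c n f H) (h' : RepAt V w c n f H') : H =ᶠ[𝓝 (w : ℂ)] H' := by
  obtain ⟨a, b, hb, hab⟩ := V.exists_fraction ℂ f
  have h0 := eq_zero_of_mul_lift (h.1.sub h'.1) hb (by
    filter_upwards [h.2 a b hab, h'.2 a b hab] with z hz hz'
    simp only [Pi.mul_apply, Pi.sub_apply, Pi.zero_apply] at hz hz' ⊢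
    linear_combination hz - hz')
  filter_upwards [h0] with z hz
  simpa [sub_eq_zero] using hz

theorem RepAt.add {w : ℍ} {c : ℂ} {n : ℕ} {f g : V.fld ℂ} {H K : ℂ → ℂ}
    (hf : RepAt V w c n f H) (hg : RepAt V w c n g K) : RepAt V w c n (f + g) (H + K) := by
  obtain ⟨a, b, hb, hab⟩ := V.exists_fraction ℂ f
  obtain ⟨a', b', hb', hab'⟩ := V.exists_fraction ℂ g
  refine repAt_of_fraction (hf.1.add hg.1) (mul_ne_zero hb hb') (a := a * b' + a' * b) ?_ ?_
  · rw [map_add, map_mul, map_mul, map_mul, ← hab, ← hab']; ring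
  · filter_upwards [hf.2 a b hab, hg.2 a' b' hab'] with z hz hz'
    simp only [lift_add, lift_mul, Pi.mul_apply, Pi.add_apply] at hz hz' ⊢
    linear_combination (lift V ℂ b' z) * hz + (lift V ℂ b z) * hz'

theorem repAt_const (w : ℍ) (c : ℂ) (n : ℕ) (r : ℂ) :
    RepAt V w c n (algebraMap ℂ (V.fld ℂ) r) (fun z => r * (z - c) ^ n) := by
  refine repAt_of_fraction (by fun_prop) (one_ne_zero (α := V.alg ℂ))
    (a := algebraMap ℂ (V.alg ℂ) r) ?_ ?_
  · rw [map_one, mul_one]; exact Subtype.ext rfl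
  · refine Eventually.of_forall fun z => ?_
    have h1 : lift V ℂ (1 : V.alg ℂ) = fun _ => 1 := by funext z; simp [lift]
    simp [h1, lift_algebraMap]

theorem RepAt.smul {w : ℍ} {c : ℂ} {n : ℕ} {f : V.fld ℂ} {H : ℂ → ℂ}
    (hf : RepAt V w c n f H) (r : ℂ) :
    RepAt V w c n (algebraMap ℂ (V.fld ℂ) r * f) (fun z => r * H z) := by
  obtain ⟨a, b, hb, hab⟩ := V.exists_fraction ℂ f
  refine repAt_of_fraction (analyticAt_const.mul hf.1) hb (a := algebraMap ℂ (V.alg ℂ) r * a) ?_ ?_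
  · rw [map_mul, ← hab, mul_assoc]; rfl
  · filter_upwards [hf.2 a b hab] with z hz
    simp only [lift_mul, lift_algebraMap, Pi.mul_apply] at hz ⊢
    simp only [Algebra.algebraMap_self, RingHom.id_apply]
    linear_combination r * hz

theorem repAt_sum {ι : Type*} (s : Finset ι) {w : ℍ} {c : ℂ} {n : ℕ} {f : ι → V.fld ℂ}
    {H : ι → ℂ → ℂ} (h : ∀ i ∈ s, RepAt V w c n (f i) (H i)) :
    RepAt V w c n (∑ i ∈ s, f i) (fun z => ∑ i ∈ s, H i z) := by
  classical
  induction s using Finset.induction with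
  | empty => simpa using repAt_const (V := V) w c n 0
  | @insert a s has ih =>
    simp only [Finset.sum_insert has]
    exact (h a (Finset.mem_insert_self _ _)).add (ih fun i hi => h i (Finset.mem_insert_of_mem hi))

/-- Being a representative persists near the point. -/
theorem RepAt.eventually {τ : ℍ} {c : ℂ} {n : ℕ} {f : V.fld ℂ} {H : ℂ → ℂ}
    (h : RepAt V τ c n f H) :
    ∀ᶠ z in 𝓝 (τ : ℂ), ∀ w : ℍ, (w : ℂ) = z → RepAt V w c n f H := by
  obtain ⟨a, b, hb, hab⟩ := V.exists_fraction ℂ f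
  filter_upwards [eventually_eventually_nhds.2 (h.2 a b hab), h.1.eventually_analyticAt] with z hz hz'
  rintro w rfl
  exact repAt_of_fraction hz' hb hab hz

theorem order_sub_pow (w c : ℂ) (n : ℕ) :
    analyticOrderAt (fun z : ℂ => (z - c) ^ n) w = ((if w = c then n else 0 : ℕ) : ℕ∞) := by
  have h := analyticOrderAt_pow (f := fun z : ℂ => z - c) (z₀ := w) (by fun_prop) n
  rw [show (fun z : ℂ => (z - c) ^ n) = (fun z : ℂ => z - c) ^ n from rfl, h]
  rcases eq_or_ne w c with rfl | hne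
  · simp
  · simp [hne]

/-- The order of a representative. -/
theorem RepAt.order {w : ℍ} {c : ℂ} {n : ℕ} {f : V.fld ℂ} {H : ℂ → ℂ}
    (h : RepAt V w c n f H) (hf : f ≠ 0) :
    ∃ m : ℕ, analyticOrderAt H (w : ℂ) = m ∧
      (m : ℤ) = (ramC V w : ℤ) * (plC V w).ord f + (if (w : ℂ) = c then n else 0 : ℕ) := by
  obtain ⟨a, b, hb, hab⟩ := V.exists_fraction ℂ f
  have ha : a ≠ 0 := fun h0 => by
    subst h0
    rw [map_zero, mul_eq_zero] at hab
    exact hab.elim hf fun h0 => hb (toFld_inj (h0.trans (map_zero _).symm))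
  have h1 := analyticOrderAt_congr (h.2 a b hab)
  have hX : AnalyticAt ℂ (fun z : ℂ => (z - c) ^ n) w := by fun_prop
  have hB := analyticOrderAt_lift_ne_top hb w
  have hA := analyticOrderAt_lift_ne_top ha w
  rw [analyticOrderAt_mul h.1 (analyticAt_lift b w.im_pos),
    analyticOrderAt_mul (analyticAt_lift a w.im_pos) hX, order_sub_pow,
    ← Nat.cast_analyticOrderNatAt hB, ← Nat.cast_analyticOrderNatAt hA] at h1
  have hH : analyticOrderAt H (w : ℂ) ≠ ⊤ := fun htop => by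
    rw [htop, top_add] at h1
    exact ENat.natCast_ne_top _ (h1.trans (Nat.cast_add _ _).symm).symm
  rw [← Nat.cast_analyticOrderNatAt hH, ← Nat.cast_add, ← Nat.cast_add, Nat.cast_inj] at h1
  refine ⟨_, (Nat.cast_analyticOrderNatAt hH).symm, ?_⟩
  have h2 := emb_mul_toFld w hf hb hab
  rw [(isPtPlace_plC w).2] at h2
  have h3 : ((analyticOrderNatAt H (w : ℂ) : ℤ) + analyticOrderNatAt (lift V ℂ b) (w : ℂ)) =
      analyticOrderNatAt (lift V ℂ a) (w : ℂ) + ((if (w : ℂ) = c then n else 0 : ℕ) : ℤ) := by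
    exact_mod_cast h1
  omega

theorem repAt_zero (w : ℍ) (c : ℂ) (n : ℕ) : RepAt V w c n 0 0 := by
  obtain ⟨h1, h2⟩ := repAt_const (V := V) w c n 0
  rw [map_zero] at h2
  refine ⟨analyticAt_const, fun a b hab => ?_⟩
  filter_upwards [h2 a b hab] with z hz
  simpa using hz

/-- A function with a pole of bounded order at a point has a representative. -/
theorem exists_repAt (τ : ℍ) (n : ℕ) (f : V.fld ℂ)
    (h : f = 0 ∨ 0 ≤ (ramC V τ : ℤ) * (plC V τ).ord f + n) :
    ∃ H, RepAt V τ τ n f H := by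
  rcases eq_or_ne f 0 with rfl | hf
  · exact ⟨0, repAt_zero τ τ n⟩
  replace h := h.resolve_left hf
  obtain ⟨a, b, hb, hab⟩ := V.exists_fraction ℂ f
  have ha : a ≠ 0 := fun h0 => by
    subst h0
    rw [map_zero, mul_eq_zero] at hab
    exact hab.elim hf fun h0 => hb (toFld_inj (h0.trans (map_zero _).symm))
  obtain ⟨A, hA, hA0, hAe⟩ := ((analyticAt_lift a τ.im_pos).analyticOrderAt_eq_natCast).1
    (Nat.cast_analyticOrderNatAt (analyticOrderAt_lift_ne_top ha τ)).symm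
  obtain ⟨B, hB, hB0, hBe⟩ := ((analyticAt_lift b τ.im_pos).analyticOrderAt_eq_natCast).1
    (Nat.cast_analyticOrderNatAt (analyticOrderAt_lift_ne_top hb τ)).symm
  set p := analyticOrderNatAt (lift V ℂ a) (τ : ℂ)
  set q := analyticOrderNatAt (lift V ℂ b) (τ : ℂ)
  have hle : q ≤ p + n := by
    have h2 := emb_mul_toFld τ hf hb hab
    rw [(isPtPlace_plC τ).2] at h2
    omega
  have han : AnalyticAt ℂ (fun z => (z - (τ : ℂ)) ^ (p + n - q) * A z / B z) τ := by fun_prop (disch := assumption)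
  refine ⟨_, repAt_of_fraction han hb hab ?_⟩
  filter_upwards [hAe, hBe, hB.continuousAt.eventually_ne hB0] with z hz hz' hz0
  simp only [Pi.mul_apply, hz, hz', smul_eq_mul]
  field_simp
  rw [mul_right_comm _ (A z), ← pow_add, Nat.sub_add_cancel hle, pow_add]
  ring

end FA.JTorsion.Divisible
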